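import Mathlib

set_option autoImplicit false
set_option linter.unusedSectionVars false

namespace Fermat.Agent.S51lib

open WeierstrassCurve WeierstrassCurve.Affine

variable {K : Type*} [Field K] [DecidableEq K] (E : WeierstrassCurve.Affine K)

/-- numerator of the duplication map on `x`-coordinates -/
def fD (x : K) : K := x ^ 4 - E.b₄ * x ^ 2 - 2 * E.b₆ * x - E.b₈

/-- denominator of the duplication map on `x`-coordinates -/
def gD (x : K) : K := 4 * x ^ 3 + E.b₂ * x ^ 2 + 2 * E.b₄ * x + E.b₆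

/-- the third division polynomial as a function -/
def psi3 (x : K) : K := 3 * x ^ 4 + E.b₂ * x ^ 3 + 3 * E.b₄ * x ^ 2 + 3 * E.b₆ * x + E.b₈

theorem psi3_eq (x : K) : psi3 E x = x * gD E x - fD E x := by
  simp only [psi3, gD, fD]; ring

variable {E}

/-- the `x`-coordinate of a point (junk value `0` at the origin) -/
def xOf : E.Point → K
  | .zero => 0
  | .some x _ _ => x

@[simp] theorem xOf_some {x y : K} (h : E.Nonsingular x y) : xOf (Point.some x y h) = x := rfl

theorem xOf_neg (P : E.Point) : xOf (-P) = xOf P := by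
  cases P <;> rfl

theorem gD_eq_sq {x y : K} (h : E.Equation x y) : gD E x = (y - E.negY x y) ^ 2 := by
  rw [equation_iff] at h
  simp only [gD, negY, b₂, b₄, b₆]
  linear_combination (-4 : K) * h

theorem fD_eq {x y : K} (h : E.Equation x y) :
    fD E x = (3 * x ^ 2 + 2 * E.a₂ * x + E.a₄ - E.a₁ * y) ^ 2
      + E.a₁ * (3 * x ^ 2 + 2 * E.a₂ * x + E.a₄ - E.a₁ * y) * (y - E.negY x y)
      - (E.a₂ + 2 * x) * (y - E.negY x y) ^ 2 := by
  rw [equation_iff] at h
  simp only [fD, negY, b₄, b₆, b₈]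
  linear_combination (E.a₁ ^ 2 + 4 * E.a₂ + 8 * x) * h

/-- `f` and `g` have no common zero at the `x`-coordinate of a nonsingular point. -/
theorem fD_ne_zero_of_gD_eq_zero {x y : K} (h : E.Nonsingular x y) (hg : gD E x = 0) :
    fD E x ≠ 0 := by
  have hd : y - E.negY x y = 0 := by
    have := gD_eq_sq h.1
    rw [hg] at this
    exact pow_eq_zero_iff (two_ne_zero) |>.mp this.symm
  rw [fD_eq h.1, hd]
  have hns := (nonsingular_iff' _ _).mp h
  rcases hns.2 with h1 | h1
  · intro h0
    apply h1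
    have : (3 * x ^ 2 + 2 * E.a₂ * x + E.a₄ - E.a₁ * y) ^ 2 = 0 := by
      linear_combination h0
    have := pow_eq_zero_iff (two_ne_zero) |>.mp this
    linear_combination -this
  · exfalso
    apply h1
    simp only [negY] at hd
    linear_combination hd

theorem two_nsmul_eq_zero_iff {x y : K} (h : E.Nonsingular x y) :
    (2 : ℕ) • (Point.some x y h) = 0 ↔ gD E x = 0 := by
  rw [two_nsmul, gD_eq_sq h.1]
  constructor
  · intro h0
    by_contra hne
    have hy : y ≠ E.negY x y := by
      intro hy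
      apply hne
      rw [← hy, sub_self]; ring
    rw [Point.add_self_of_Y_ne hy] at h0
    exact Point.some_ne_zero _ h0
  · intro h0
    have hy : y = E.negY x y := sub_eq_zero.mp (pow_eq_zero_iff (two_ne_zero) |>.mp h0)
    exact Point.add_self_of_Y_eq hy

/-- The duplication formula on `x`-coordinates. -/
theorem xOf_two_nsmul {P : E.Point} (hP : P ≠ 0) (h2 : (2 : ℕ) • P ≠ 0) :
    gD E (xOf P) ≠ 0 ∧ xOf ((2 : ℕ) • P) * gD E (xOf P) = fD E (xOf P) := by
  rcases P with _ | ⟨x, y, h⟩
  · exact absurd rfl hP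
  have hg : gD E x ≠ 0 := fun h0 => h2 ((two_nsmul_eq_zero_iff h).mpr h0)
  refine ⟨hg, ?_⟩
  have hy : y ≠ E.negY x y := by
    intro hy
    apply hg
    rw [gD_eq_sq h.1, ← hy, sub_self]; ring
  have hd : y - E.negY x y ≠ 0 := sub_ne_zero.mpr hy
  rw [two_nsmul, Point.add_self_of_Y_ne hy, xOf_some, xOf_some, slope_of_Y_ne rfl hy, addX,
    fD_eq h.1, gD_eq_sq h.1]
  field_simp
  ring

theorem eq_or_eq_neg_of_xOf_eq {P Q : E.Point} (hP : P ≠ 0) (hQ : Q ≠ 0) (h : xOf P = xOf Q) :
    P = Q ∨ P = -Q := by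
  rcases P with _ | ⟨x, y, hp⟩
  · exact absurd rfl hP
  rcases Q with _ | ⟨x', y', hq⟩
  · exact absurd rfl hQ
  exact Point.X_eq_iff.mp h

end Fermat.Agent.S51lib
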