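import Fermat.Agent.S51lib.Torsion

set_option autoImplicit false
set_option linter.unusedSectionVars false

namespace Fermat.Agent.S51lib

open WeierstrassCurve WeierstrassCurve.Affine Polynomial

variable {K : Type*} [Field K] [DecidableEq K] {E : WeierstrassCurve.Affine K}

/-- coordinates of a point -/
def toOpt : E.Point → Option (K × K)
  | .zero => none
  | .some x y _ => Option.some (x, y)

theorem toOpt_injective : Function.Injective (toOpt (E := E)) := by
  rintro (_ | ⟨x₁, y₁, h₁⟩) (_ | ⟨x₂, y₂, h₂⟩) h <;>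
    simp only [toOpt, Option.some.injEq, Prod.mk.injEq, reduceCtorEq] at h
  · rfl
  · obtain ⟨rfl, rfl⟩ := h; rfl

/-- the quadratic in `y` cutting out the points with given `x` -/
noncomputable def yPoly (E : WeierstrassCurve.Affine K) (x : K) : K[X] :=
  X ^ 2 + C (E.a₁ * x + E.a₃) * X - C (x ^ 3 + E.a₂ * x ^ 2 + E.a₄ * x + E.a₆)

theorem yPoly_natDegree (x : K) : (yPoly E x).natDegree = 2 := by
  unfold yPoly; compute_degree!

theorem yPoly_ne_zero (x : K) : yPoly E x ≠ 0 := by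
  intro h
  have := yPoly_natDegree (E := E) x
  rw [h] at this
  simp at this

theorem yPoly_eval {x y : K} (h : E.Equation x y) : (yPoly E x).eval y = 0 := by
  rw [equation_iff] at h
  simp only [yPoly, eval_add, eval_sub, eval_mul, eval_pow, eval_X, eval_C]
  linear_combination h

/-- the finite set of possible coordinates of points whose `x`-coordinate is a root of `p` -/
noncomputable def candSet (E : WeierstrassCurve.Affine K) (p : K[X]) : Finset (Option (K × K)) :=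
  insert none ((p.roots.toFinset.biUnion fun x =>
    (yPoly E x).roots.toFinset.image fun y => (x, y)).image Option.some)

theorem card_candSet_le (p : K[X]) : (candSet E p).card ≤ 2 * p.natDegree + 1 := by
  unfold candSet
  refine (Finset.card_insert_le _ _).trans ?_
  refine Nat.succ_le_succ ?_
  refine Finset.card_image_le.trans ?_
  refine Finset.card_biUnion_le.trans ?_
  have h1 : ∀ x ∈ p.roots.toFinset,
      ((yPoly E x).roots.toFinset.image fun y => (x, y)).card ≤ 2 := by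
    intro x _
    refine Finset.card_image_le.trans ?_
    refine (Multiset.toFinset_card_le _).trans ?_
    refine (Polynomial.card_roots' _).trans ?_
    rw [yPoly_natDegree]
  refine (Finset.sum_le_card_nsmul _ _ 2 h1).trans ?_
  rw [smul_eq_mul, mul_comm]
  refine Nat.mul_le_mul_left 2 ?_
  exact (Multiset.toFinset_card_le _).trans (Polynomial.card_roots' _)

theorem toOpt_mem_candSet {p : K[X]} (hp : p ≠ 0) {P : E.Point}
    (h : P ≠ 0 → p.eval (xOf P) = 0) : toOpt P ∈ candSet E p := by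
  rcases P with _ | ⟨x, y, hxy⟩
  · exact Finset.mem_insert_self _ _
  · have hx : p.eval x = 0 := h (Point.some_ne_zero _)
    unfold candSet
    refine Finset.mem_insert_of_mem ?_
    refine Finset.mem_image_of_mem _ ?_
    rw [Finset.mem_biUnion]
    refine ⟨x, ?_, ?_⟩
    · rw [Multiset.mem_toFinset, mem_roots hp]; exact hx
    · refine Finset.mem_image_of_mem _ ?_
      rw [Multiset.mem_toFinset, mem_roots (yPoly_ne_zero x)]
      exact yPoly_eval hxy.1

/-- A subgroup of points whose nonzero members have `x`-coordinates among the roots of a nonzero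
polynomial `p` is finite of cardinality at most `2 deg p + 1`. -/
theorem card_le_of_roots {p : K[X]} (hp : p ≠ 0) (S : Set E.Point)
    (h : ∀ P ∈ S, P ≠ 0 → p.eval (xOf P) = 0) :
    Finite S ∧ Nat.card S ≤ 2 * p.natDegree + 1 := by
  let φ : S → (candSet E p : Set (Option (K × K))) :=
    fun P => ⟨toOpt P.1, toOpt_mem_candSet hp (h P.1 P.2)⟩
  have hφ : Function.Injective φ := by
    intro P Q hPQ
    apply Subtype.ext
    apply toOpt_injective
    exact congrArg Subtype.val hPQ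
  have hfin : Finite S := Finite.of_injective φ hφ
  refine ⟨hfin, ?_⟩
  have := Nat.card_le_card_of_injective φ hφ
  refine this.trans ?_
  rw [Nat.card_eq_fintype_card]
  simp only [Finset.coe_sort_coe, Fintype.card_coe]
  exact card_candSet_le p

/-! ### the polynomials -/

noncomputable def psi3P (E : WeierstrassCurve.Affine K) : K[X] :=
  C 3 * X ^ 4 + C E.b₂ * X ^ 3 + C (3 * E.b₄) * X ^ 2 + C (3 * E.b₆) * X + C E.b₈

theorem psi3P_eval (x : K) : (psi3P E).eval x = psi3 E x := by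
  simp only [psi3P, psi3, eval_add, eval_mul, eval_pow, eval_X, eval_C]

theorem psi3P_natDegree_le : (psi3P E).natDegree ≤ 4 := by
  unfold psi3P; compute_degree

theorem psi3P_coeff : (psi3P E).coeff 4 = 3 := by
  unfold psi3P; compute_degree!

theorem psi3P_ne_zero [CharZero K] : psi3P E ≠ 0 := by
  intro h
  have := psi3P_coeff (E := E)
  rw [h] at this
  simp at this

noncomputable def H16P (E : WeierstrassCurve.Affine K) : K[X] :=
  (X ^ 4 - C E.b₄ * X ^ 2 - C (2 * E.b₆) * X - C E.b₈) ^ 4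
  - C E.b₄ * (X ^ 4 - C E.b₄ * X ^ 2 - C (2 * E.b₆) * X - C E.b₈) ^ 2
      * (C 4 * X ^ 3 + C E.b₂ * X ^ 2 + C (2 * E.b₄) * X + C E.b₆) ^ 2
  - C (2 * E.b₆) * (X ^ 4 - C E.b₄ * X ^ 2 - C (2 * E.b₆) * X - C E.b₈)
      * (C 4 * X ^ 3 + C E.b₂ * X ^ 2 + C (2 * E.b₄) * X + C E.b₆) ^ 3
  - C E.b₈ * (C 4 * X ^ 3 + C E.b₂ * X ^ 2 + C (2 * E.b₄) * X + C E.b₆) ^ 4
  - X * (C 4 * X ^ 3 + C E.b₂ * X ^ 2 + C (2 * E.b₄) * X + C E.b₆)
    * (C 4 * (X ^ 4 - C E.b₄ * X ^ 2 - C (2 * E.b₆) * X - C E.b₈) ^ 3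
     + C E.b₂ * (X ^ 4 - C E.b₄ * X ^ 2 - C (2 * E.b₆) * X - C E.b₈) ^ 2
        * (C 4 * X ^ 3 + C E.b₂ * X ^ 2 + C (2 * E.b₄) * X + C E.b₆)
     + C (2 * E.b₄) * (X ^ 4 - C E.b₄ * X ^ 2 - C (2 * E.b₆) * X - C E.b₈)
        * (C 4 * X ^ 3 + C E.b₂ * X ^ 2 + C (2 * E.b₄) * X + C E.b₆) ^ 2
     + C E.b₆ * (C 4 * X ^ 3 + C E.b₂ * X ^ 2 + C (2 * E.b₄) * X + C E.b₆) ^ 3)

theorem H16P_natDegree_le : (H16P E).natDegree ≤ 16 := by
  unfold H16P; compute_degree

theorem H16P_coeff : (H16P E).coeff 16 = -15 := by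
  unfold H16P; compute_degree!

theorem H16P_ne_zero [CharZero K] : H16P E ≠ 0 := by
  intro h
  have := H16P_coeff (E := E)
  rw [h] at this
  simp only [coeff_zero] at this
  have h15 : (15 : K) = 0 := by linear_combination this
  exact absurd h15 (by norm_num)

theorem H16P_eval (x : K) : (H16P E).eval x =
    (fD E x) ^ 4 - E.b₄ * (fD E x) ^ 2 * (gD E x) ^ 2 - 2 * E.b₆ * fD E x * (gD E x) ^ 3
      - E.b₈ * (gD E x) ^ 4
      - x * gD E x * (4 * (fD E x) ^ 3 + E.b₂ * (fD E x) ^ 2 * gD E x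
        + 2 * E.b₄ * fD E x * (gD E x) ^ 2 + E.b₆ * (gD E x) ^ 3) := by
  simp only [H16P, fD, gD, eval_add, eval_sub, eval_mul, eval_pow, eval_X, eval_C]

theorem H16P_eval_eq_zero {x₁ x₂ : K} (h1 : x₂ * gD E x₁ = fD E x₁)
    (h2 : x₁ * gD E x₂ = fD E x₂) : (H16P E).eval x₁ = 0 := by
  rw [H16P_eval, ← h1]
  have : (x₂ * gD E x₁) ^ 4 - E.b₄ * (x₂ * gD E x₁) ^ 2 * gD E x₁ ^ 2
      - 2 * E.b₆ * (x₂ * gD E x₁) * gD E x₁ ^ 3 - E.b₈ * gD E x₁ ^ 4
      - x₁ * gD E x₁ * (4 * (x₂ * gD E x₁) ^ 3 + E.b₂ * (x₂ * gD E x₁) ^ 2 * gD E x₁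
        + 2 * E.b₄ * (x₂ * gD E x₁) * gD E x₁ ^ 2 + E.b₆ * gD E x₁ ^ 3)
      = (gD E x₁) ^ 4 * (fD E x₂ - x₁ * gD E x₂) := by
    simp only [fD, gD]; ring
  rw [this, h2, sub_self, mul_zero]

end Fermat.Agent.S51lib
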