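import Mathlib

/-!
# S51, task T1: Fermat descent for the concordant pair `(1, 81)` and the rational points of
`y ^ 2 = x (x + 16) (x + 25)`.
-/

set_option autoImplicit false

namespace Fermat.Agent.S51lib

/-! ### small helpers -/

theorem sq_mod8 (x : ℤ) :
    (x % 2 = 0 ∧ (x ^ 2 % 8 = 0 ∨ x ^ 2 % 8 = 4)) ∨ (x % 2 = 1 ∧ x ^ 2 % 8 = 1) := by
  have h : x % 8 = 0 ∨ x % 8 = 1 ∨ x % 8 = 2 ∨ x % 8 = 3 ∨ x % 8 = 4 ∨ x % 8 = 5 ∨ x % 8 = 6 ∨
      x % 8 = 7 := by omega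
  have h2 : x ^ 2 % 8 = (x % 8) * (x % 8) % 8 := by rw [pow_two, Int.mul_emod]
  rcases h with h | h | h | h | h | h | h | h <;> rw [h] at h2 <;> omega

theorem sq_mod3 (x : ℤ) :
    (x % 3 = 0 ∧ x ^ 2 % 3 = 0) ∨ (x % 3 ≠ 0 ∧ x ^ 2 % 3 = 1) := by
  have h : x % 3 = 0 ∨ x % 3 = 1 ∨ x % 3 = 2 := by omega
  have h2 : x ^ 2 % 3 = (x % 3) * (x % 3) % 3 := by rw [pow_two, Int.mul_emod]
  rcases h with h | h | h <;> rw [h] at h2 <;> omega

theorem not_both_even {a b : ℤ} (h : IsCoprime a b) : ¬ (a % 2 = 0 ∧ b % 2 = 0) := by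
  rintro ⟨ha, hb⟩
  have := h.isUnit_of_dvd' (Int.dvd_of_emod_eq_zero ha) (Int.dvd_of_emod_eq_zero hb)
  rw [Int.isUnit_iff] at this
  omega

theorem not_both_three {a b : ℤ} (h : IsCoprime a b) : ¬ (a % 3 = 0 ∧ b % 3 = 0) := by
  rintro ⟨ha, hb⟩
  have := h.isUnit_of_dvd' (Int.dvd_of_emod_eq_zero ha) (Int.dvd_of_emod_eq_zero hb)
  rw [Int.isUnit_iff] at this
  omega

theorem one_le_sq {a : ℤ} (h : a ≠ 0) : 1 ≤ a ^ 2 := by
  have : 0 < a ^ 2 := by positivity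
  omega

theorem two_le_natAbs_of_sq {a : ℤ} (h : 1 < a ^ 2) : 2 ≤ a.natAbs := by
  by_contra hlt
  have : a = 0 ∨ a = 1 ∨ a = -1 := by omega
  rcases this with rfl | rfl | rfl <;> norm_num at h

theorem natAbs_lt_aux (E A B C : ℤ) (hE : E ≠ 0) (hA : 1 < A ^ 2) (hB : B ≠ 0) (hC : C ≠ 0) :
    E.natAbs < (E * A * B * C).natAbs := by
  rw [Int.natAbs_mul, Int.natAbs_mul, Int.natAbs_mul]
  have h1 : 0 < E.natAbs := Int.natAbs_pos.mpr hE
  have h2 : 2 ≤ A.natAbs := two_le_natAbs_of_sq hA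
  have h3 : 0 < B.natAbs := Int.natAbs_pos.mpr hB
  have h4 : 0 < C.natAbs := Int.natAbs_pos.mpr hC
  calc E.natAbs < E.natAbs * A.natAbs := by nlinarith
    _ ≤ E.natAbs * A.natAbs * B.natAbs := Nat.le_mul_of_pos_right _ h3
    _ ≤ E.natAbs * A.natAbs * B.natAbs * C.natAbs := Nat.le_mul_of_pos_right _ h4

theorem dvd_eighty {g : ℤ} (hg : g ∣ 80) :
    g = 1 ∨ g = 4 ∨ g = 16 ∨ g = -1 ∨ g = -4 ∨ g = -16 ∨ g = 5 ∨ g = 20 ∨ g = 80 ∨
    g = -5 ∨ g = -20 ∨ g = -80 ∨ g = 2 ∨ g = 10 ∨ g = -2 ∨ g = -10 ∨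
    g = 8 ∨ g = 40 ∨ g = -8 ∨ g = -40 := by
  have h1 : g ≤ 80 := Int.le_of_dvd (by norm_num) hg
  have h2 : -g ≤ 80 := Int.le_of_dvd (by norm_num) ((neg_dvd).mpr hg)
  have h3 : -80 ≤ g := by omega
  obtain ⟨k, hk⟩ := hg
  interval_cases g <;> omega

theorem sq_mod8' (x : ℤ) : (x % 2 = 0 ∧ x ^ 2 % 4 = 0) ∨ (x % 2 = 1 ∧ x ^ 2 % 8 = 1) := by
  rcases sq_mod8 x with ⟨h1, h2⟩ | ⟨h1, h2⟩
  · left; omega
  · right; omega

theorem lemmaK_bad (X2 Y1 X1 Y2 g : ℤ) (hc1 : IsCoprime X2 Y1) (hc2 : IsCoprime X1 Y2)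
    (h1 : X2 ^ 2 - Y1 ^ 2 = g * X1 ^ 2) (h2 : X2 ^ 2 - 81 * Y1 ^ 2 = g * Y2 ^ 2)
    (hg : g = 2 ∨ g = 10 ∨ g = -2 ∨ g = -10 ∨ g = 8 ∨ g = 40 ∨ g = -8 ∨ g = -40) : False := by
  have e1 := not_both_even hc1
  have e2 := not_both_even hc2
  have m1 := sq_mod8' X2
  have m2 := sq_mod8' Y1
  have m3 := sq_mod8' X1
  have m4 := sq_mod8' Y2
  generalize X2 ^ 2 = a at *
  generalize Y1 ^ 2 = b at *
  generalize X1 ^ 2 = c at *
  generalize Y2 ^ 2 = d at *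
  rcases m1 with ⟨m1, n1⟩ | ⟨m1, n1⟩ <;> rcases m2 with ⟨m2, n2⟩ | ⟨m2, n2⟩ <;>
  rcases m3 with ⟨m3, n3⟩ | ⟨m3, n3⟩ <;> rcases m4 with ⟨m4, n4⟩ | ⟨m4, n4⟩ <;>
  rcases hg with rfl | rfl | rfl | rfl | rfl | rfl | rfl | rfl <;> omega

/-! ### Lemma K -/

theorem lemmaK (X2 Y1 X1 Y2 g : ℤ) (hX2 : X2 ≠ 0) (hY1 : Y1 ≠ 0) (hX1 : X1 ≠ 0) (hY2 : Y2 ≠ 0)
    (hg : g ∣ 80) (hc1 : IsCoprime X2 Y1) (hc2 : IsCoprime X1 Y2)
    (h1 : X2 ^ 2 - Y1 ^ 2 = g * X1 ^ 2) (h2 : X2 ^ 2 - 81 * Y1 ^ 2 = g * Y2 ^ 2) :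
    ∃ U E V W : ℤ, U ^ 2 - E ^ 2 = V ^ 2 ∧ U ^ 2 - 81 * E ^ 2 = W ^ 2 ∧ E ≠ 0 ∧
      E.natAbs < (X2 * Y1 * X1 * Y2).natAbs := by
  have p1 := one_le_sq hX2
  have p2 := one_le_sq hY1
  have p3 := one_le_sq hX1
  have p4 := one_le_sq hY2
  have cA : 1 < X2 ^ 2 → Y1.natAbs < (X2 * Y1 * X1 * Y2).natAbs := fun h => by
    have := natAbs_lt_aux Y1 X2 X1 Y2 hY1 h hX1 hY2
    rwa [show Y1 * X2 * X1 * Y2 = X2 * Y1 * X1 * Y2 by ring] at this
  have cB : 1 < Y1 ^ 2 → X2.natAbs < (X2 * Y1 * X1 * Y2).natAbs := fun h =>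
    natAbs_lt_aux X2 Y1 X1 Y2 hX2 h hX1 hY2
  have cC : 1 < X1 ^ 2 → Y2.natAbs < (X2 * Y1 * X1 * Y2).natAbs := fun h => by
    have := natAbs_lt_aux Y2 X1 X2 Y1 hY2 h hX2 hY1
    rwa [show Y2 * X1 * X2 * Y1 = X2 * Y1 * X1 * Y2 by ring] at this
  have cD : 1 < Y2 ^ 2 → X1.natAbs < (X2 * Y1 * X1 * Y2).natAbs := fun h => by
    have := natAbs_lt_aux X1 Y2 X2 Y1 hX1 h hX2 hY1
    rwa [show X1 * Y2 * X2 * Y1 = X2 * Y1 * X1 * Y2 by ring] at this
  rcases dvd_eighty hg with rfl | rfl | rfl | rfl | rfl | rfl | rfl | rfl | rfl | rfl | rfl | rfl |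
    rfl | rfl | rfl | rfl | rfl | rfl | rfl | rfl
  · exact ⟨X2, Y1, X1, Y2, by linear_combination h1, by linear_combination h2, hY1,
      cA (by linarith)⟩
  · exact ⟨X2, Y1, 2 * X1, 2 * Y2, by linear_combination h1, by linear_combination h2, hY1,
      cA (by linarith)⟩
  · exact ⟨X2, Y1, 4 * X1, 4 * Y2, by linear_combination h1, by linear_combination h2, hY1,
      cA (by linarith)⟩
  · exact ⟨9 * Y1, X2, Y2, 9 * X1, by linear_combination -h2, by linear_combination -81 * h1, hX2,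
      cB (by linarith)⟩
  · exact ⟨9 * Y1, X2, 2 * Y2, 18 * X1, by linear_combination -h2, by linear_combination -81 * h1,
      hX2, cB (by linarith)⟩
  · exact ⟨9 * Y1, X2, 4 * Y2, 36 * X1, by linear_combination -h2, by linear_combination -81 * h1,
      hX2, cB (by linarith)⟩
  · -- g = 5
    exact ⟨9 * X1, Y2, 4 * X2, 36 * Y1, by linarith, by linarith, hY2, cC (by linarith)⟩
  · -- g = 20
    exact ⟨9 * X1, Y2, 2 * X2, 18 * Y1, by linarith, by linarith, hY2, cC (by linarith)⟩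
  · -- g = 80
    exact ⟨9 * X1, Y2, X2, 9 * Y1, by linarith, by linarith, hY2, cC (by linarith)⟩
  · -- g = -5
    exact ⟨Y2, X1, 4 * Y1, 4 * X2, by linarith, by linarith, hX1, cD (by linarith)⟩
  · -- g = -20
    exact ⟨Y2, X1, 2 * Y1, 2 * X2, by linarith, by linarith, hX1, cD (by linarith)⟩
  · -- g = -80
    exact ⟨Y2, X1, Y1, X2, by linarith, by linarith, hX1, cD (by linarith)⟩
  all_goals exact (lemmaK_bad X2 Y1 X1 Y2 _ hc1 hc2 h1 h2 (by norm_num)).elim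

/-! ### The core of the descent -/

theorem lemmaC9 (α β γ δ : ℤ) (hαβ : IsCoprime α β) (h0 : α * β ≠ 0) (hm : γ * δ = α * β)
    (hs : α ^ 2 + β ^ 2 = 81 * γ ^ 2 + δ ^ 2) :
    ∃ U E V W : ℤ, U ^ 2 - E ^ 2 = V ^ 2 ∧ U ^ 2 - 81 * E ^ 2 = W ^ 2 ∧ E ≠ 0 ∧
      E.natAbs < (α * β).natAbs := by
  have hα : α ≠ 0 := left_ne_zero_of_mul h0
  have hβ : β ≠ 0 := right_ne_zero_of_mul h0
  have hγ : γ ≠ 0 := left_ne_zero_of_mul (hm ▸ h0)
  have hδ : δ ≠ 0 := right_ne_zero_of_mul (hm ▸ h0)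
  have hpos : 0 < Int.gcd α γ := Int.gcd_pos_of_ne_zero_left _ hα
  obtain ⟨d, x2, y1, hd, hg1, hαe, hγe⟩ := Int.exists_gcd_one' hpos
  set x1 : ℤ := (d : ℤ) with hx1def
  have hx1 : x1 ≠ 0 := by
    rw [hx1def]; exact_mod_cast hd.ne'
  have hc21 : IsCoprime x2 y1 := Int.isCoprime_iff_gcd_eq_one.mpr hg1
  have hx2 : x2 ≠ 0 := by
    rintro rfl; exact hα (by rw [hαe]; ring)
  have hy1 : y1 ≠ 0 := by
    rintro rfl; exact hγ (by rw [hγe]; ring)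
  have e1 : y1 * δ = x2 * β := by
    apply mul_left_cancel₀ hx1
    rw [hαe, hγe] at hm
    linear_combination hm
  have hdvd : x2 ∣ δ := hc21.dvd_of_dvd_mul_left ⟨β, e1⟩
  obtain ⟨y2, hy2e⟩ := hdvd
  have hβe : β = y1 * y2 := by
    apply mul_left_cancel₀ hx2
    rw [hy2e] at e1
    linear_combination -e1
  have hy2 : y2 ≠ 0 := by
    rintro rfl; exact hβ (by rw [hβe]; ring)
  have hc12 : IsCoprime x1 y2 := by
    rw [hαe, hβe] at hαβ
    exact hαβ.of_mul_left_right.of_mul_right_right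
  have e2 : x1 ^ 2 * (x2 ^ 2 - 81 * y1 ^ 2) = y2 ^ 2 * (x2 ^ 2 - y1 ^ 2) := by
    rw [hαe, hβe, hγe, hy2e] at hs
    linear_combination hs
  have hdvd2 : x1 ^ 2 ∣ x2 ^ 2 - y1 ^ 2 :=
    (hc12.pow (m := 2) (n := 2)).dvd_of_dvd_mul_left ⟨_, e2.symm⟩
  obtain ⟨g, hg⟩ := hdvd2
  have k1 : x2 ^ 2 - y1 ^ 2 = g * x1 ^ 2 := by rw [hg]; ring
  have k2 : x2 ^ 2 - 81 * y1 ^ 2 = g * y2 ^ 2 := by
    apply mul_left_cancel₀ (pow_ne_zero 2 hx1)
    rw [e2, hg]; ring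
  have hg80 : g ∣ 80 := by
    obtain ⟨s, t, hst⟩ := hc21.pow (m := 2) (n := 2)
    refine ⟨s * (81 * x1 ^ 2 - y2 ^ 2) + t * (x1 ^ 2 - y2 ^ 2), ?_⟩
    linear_combination (-80) * hst + (81 * s + t) * k1 - (s + t) * k2
  obtain ⟨U, E, V, W, r1, r2, r3, r4⟩ := lemmaK x2 y1 x1 y2 g hx2 hy1 hx1 hy2 hg80 hc21 hc12 k1 k2
  refine ⟨U, E, V, W, r1, r2, r3, ?_⟩
  rwa [show α * β = x2 * y1 * x1 * y2 by rw [hαe, hβe]; ring]

theorem lemmaC (α β γ δ : ℤ) (hαβ : IsCoprime α β) (hγδ : IsCoprime γ δ) (h0 : α * β ≠ 0)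
    (hm : γ * δ = 9 * (α * β)) (hs : α ^ 2 + β ^ 2 = γ ^ 2 + δ ^ 2) :
    ∃ U E V W : ℤ, U ^ 2 - E ^ 2 = V ^ 2 ∧ U ^ 2 - 81 * E ^ 2 = W ^ 2 ∧ E ≠ 0 ∧
      E.natAbs < (α * β).natAbs := by
  have h3 : (3 : ℤ) ∣ γ * δ := ⟨3 * (α * β), by rw [hm]; ring⟩
  have h9 : (3 : ℤ) ^ 2 ∣ γ * δ := ⟨α * β, by rw [hm]; ring⟩
  rcases Int.prime_three.dvd_or_dvd h3 with h | h
  · have hc : IsCoprime ((3 : ℤ) ^ 2) δ := (hγδ.of_isCoprime_of_dvd_left h).pow_left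
    obtain ⟨γ₁, rfl⟩ := hc.dvd_of_dvd_mul_right h9
    exact lemmaC9 α β γ₁ δ hαβ h0 (by linarith) (by linear_combination hs)
  · have hc : IsCoprime ((3 : ℤ) ^ 2) γ := (hγδ.symm.of_isCoprime_of_dvd_left h).pow_left
    obtain ⟨δ₁, rfl⟩ := hc.dvd_of_dvd_mul_left h9
    exact lemmaC9 α β δ₁ γ hαβ h0 (by linarith) (by linear_combination hs)

/-! ### The descent step -/

theorem coprime_leg {a b c : ℤ} (h : IsCoprime c a) (heq : c ^ 2 - a ^ 2 = b ^ 2) :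
    IsCoprime a b := by
  have h1 : IsCoprime a (c ^ 2) := h.symm.pow_right
  have h2 : c ^ 2 = b ^ 2 + a * a := by linear_combination heq
  rw [h2, IsCoprime.add_mul_left_right_iff] at h1
  exact (IsCoprime.pow_right_iff two_pos).mp h1

theorem coprime_add_sub {m n : ℤ} (h : IsCoprime m n) (hp : (m + n) % 2 = 1) :
    IsCoprime (m + n) (m - n) := by
  obtain ⟨s, t, hst⟩ := h
  obtain ⟨k, hk⟩ : ∃ k, m + n = 2 * k + 1 := ⟨(m + n) / 2, by omega⟩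
  refine ⟨1 - k * (s + t), -k * (s - t), ?_⟩
  linear_combination hk - 2 * k * hst

theorem descent_step_pos (u e v w : ℤ) (hu : 0 < u) (he : e ≠ 0) (hc : IsCoprime u e)
    (h1 : u ^ 2 - e ^ 2 = v ^ 2) (h2 : u ^ 2 - 81 * e ^ 2 = w ^ 2) :
    ∃ U E V W : ℤ, U ^ 2 - E ^ 2 = V ^ 2 ∧ U ^ 2 - 81 * E ^ 2 = W ^ 2 ∧ E ≠ 0 ∧
      E.natAbs < e.natAbs := by
  -- `3 ∤ u`
  have h3u : ¬ (3 : ℤ) ∣ u := by
    intro h3
    have hu3 : u % 3 = 0 := Int.emod_eq_zero_of_dvd h3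
    have n1 := not_both_three hc
    have a1 := sq_mod3 u
    have a2 := sq_mod3 e
    have a3 := sq_mod3 v
    generalize u ^ 2 = a at *
    generalize e ^ 2 = b at *
    generalize v ^ 2 = c at *
    omega
  have hc3 : IsCoprime u 3 := ((Int.prime_three.coprime_iff_not_dvd).mpr h3u).symm
  have hc9 : IsCoprime u (9 * e) := by
    have : IsCoprime u ((3 : ℤ) ^ 2 * e) := hc3.pow_right.mul_right hc
    norm_num at this
    exact this
  have h2' : u ^ 2 - (9 * e) ^ 2 = w ^ 2 := by linear_combination h2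
  have cev : IsCoprime e v := coprime_leg hc h1
  have cew : IsCoprime (9 * e) w := coprime_leg hc9 h2'
  have pt1 : PythagoreanTriple e v u := by
    unfold PythagoreanTriple; linear_combination -h1
  have pt2 : PythagoreanTriple (9 * e) w u := by
    unfold PythagoreanTriple; linear_combination -h2'
  rcases Int.emod_two_eq_zero_or_one e with hpar | hpar
  · -- `e` even
    have hv : v % 2 = 1 := by
      have := not_both_even cev
      omega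
    have hw : w % 2 = 1 := by
      have := not_both_even cew
      omega
    obtain ⟨m, n, q1, q2, q3, q4, -, -⟩ := pt1.symm.coprime_classification'
      (Int.isCoprime_iff_gcd_eq_one.mp cev.symm) hv hu
    obtain ⟨m', n', q1', q2', q3', q4', -, -⟩ := pt2.symm.coprime_classification'
      (Int.isCoprime_iff_gcd_eq_one.mp cew.symm) hw hu
    have h0 : m * n ≠ 0 := by
      intro h; apply he; rw [q2, mul_assoc, h]; ring
    obtain ⟨U, E, V, W, r1, r2, r3, r4⟩ := lemmaC m n m' n' (Int.isCoprime_iff_gcd_eq_one.mpr q4)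
      (Int.isCoprime_iff_gcd_eq_one.mpr q4') h0 (by linarith) (by linarith)
    refine ⟨U, E, V, W, r1, r2, r3, lt_of_lt_of_le r4 ?_⟩
    have : e.natAbs = 2 * (m * n).natAbs := by
      rw [q2, mul_assoc, Int.natAbs_mul 2 (m * n)]; rfl
    omega
  · -- `e` odd
    have hpar9 : (9 * e) % 2 = 1 := by omega
    obtain ⟨m, n, q1, q2, q3, q4, q5, -⟩ := pt1.coprime_classification'
      (Int.isCoprime_iff_gcd_eq_one.mp cev) hpar hu
    obtain ⟨m', n', q1', q2', q3', q4', q5', -⟩ := pt2.coprime_classification'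
      (Int.isCoprime_iff_gcd_eq_one.mp cew) hpar9 hu
    have hprod : (m + n) * (m - n) = e := by rw [q1]; ring
    obtain ⟨U, E, V, W, r1, r2, r3, r4⟩ := lemmaC (m + n) (m - n) (m' + n') (m' - n')
      (coprime_add_sub (Int.isCoprime_iff_gcd_eq_one.mpr q4) (by omega))
      (coprime_add_sub (Int.isCoprime_iff_gcd_eq_one.mpr q4') (by omega))
      (by rw [hprod]; exact he) (by rw [hprod]; linear_combination -q1')
      (by linear_combination 2 * q3' - 2 * q3)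
    refine ⟨U, E, V, W, r1, r2, r3, ?_⟩
    rwa [hprod] at r4

theorem descent_step (u e v w : ℤ) (he : e ≠ 0) (hc : IsCoprime u e)
    (h1 : u ^ 2 - e ^ 2 = v ^ 2) (h2 : u ^ 2 - 81 * e ^ 2 = w ^ 2) :
    ∃ U E V W : ℤ, U ^ 2 - E ^ 2 = V ^ 2 ∧ U ^ 2 - 81 * E ^ 2 = W ^ 2 ∧ E ≠ 0 ∧
      E.natAbs < e.natAbs := by
  have hu : u ≠ 0 := by
    rintro rfl
    have := one_le_sq he
    nlinarith [sq_nonneg v]
  rcases lt_or_gt_of_ne hu with h | h
  · exact descent_step_pos (-u) e v w (by omega) he hc.neg_left (by linear_combination h1)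
      (by linear_combination h2)
  · exact descent_step_pos u e v w h he hc h1 h2

theorem no_concordant_aux (n : ℕ) : ∀ u e v w : ℤ, e.natAbs = n → e ≠ 0 →
    u ^ 2 - e ^ 2 = v ^ 2 → u ^ 2 - 81 * e ^ 2 = w ^ 2 → False := by
  induction n using Nat.strong_induction_on with
  | _ n ih =>
    intro u e v w hn he h1 h2
    by_cases hc : IsCoprime u e
    · obtain ⟨U, E, V, W, r1, r2, r3, r4⟩ := descent_step u e v w he hc h1 h2
      exact ih E.natAbs (hn ▸ r4) U E V W rfl r3 r1 r2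
    · have hpos : 0 < Int.gcd u e := Int.gcd_pos_of_ne_zero_right _ he
      obtain ⟨d, u', e', hd, hg1, hue, hee⟩ := Int.exists_gcd_one' hpos
      have hd0 : (d : ℤ) ≠ 0 := by exact_mod_cast hd.ne'
      have hd1 : d ≠ 1 := by
        rintro rfl
        apply hc
        rw [hue, hee]
        simpa using Int.isCoprime_iff_gcd_eq_one.mpr hg1
      have he' : e' ≠ 0 := by
        rintro rfl; exact he (by rw [hee]; ring)
      have dv : (d : ℤ) ∣ v := by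
        rw [← Int.pow_dvd_pow_iff (n := 2) (by norm_num), ← h1, hue, hee]
        exact ⟨u' ^ 2 - e' ^ 2, by ring⟩
      have dw : (d : ℤ) ∣ w := by
        rw [← Int.pow_dvd_pow_iff (n := 2) (by norm_num), ← h2, hue, hee]
        exact ⟨u' ^ 2 - 81 * e' ^ 2, by ring⟩
      obtain ⟨v', rfl⟩ := dv
      obtain ⟨w', rfl⟩ := dw
      have hlt : e'.natAbs < n := by
        rw [← hn, hee, Int.natAbs_mul, Int.natAbs_natCast]
        have : 0 < e'.natAbs := Int.natAbs_pos.mpr he'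
        have : 2 ≤ d := by omega
        nlinarith
      refine ih e'.natAbs hlt u' e' v' w' rfl he' ?_ ?_
      · apply mul_left_cancel₀ (pow_ne_zero 2 hd0)
        rw [hue, hee] at h1
        linear_combination h1
      · apply mul_left_cancel₀ (pow_ne_zero 2 hd0)
        rw [hue, hee] at h2
        linear_combination h2

theorem no_concordant (u e v w : ℤ) (he : e ≠ 0) (h1 : u ^ 2 - e ^ 2 = v ^ 2)
    (h2 : u ^ 2 - 81 * e ^ 2 = w ^ 2) : False :=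
  no_concordant_aux e.natAbs u e v w rfl he h1 h2

/-! ### Rational points of `y ^ 2 = x (x + 16) (x + 25)` -/

theorem lemmaSq (u e m : ℤ) (hc : IsCoprime u e) (hu : u ≠ 0) (he : e ≠ 0) (hm : m ≠ 0)
    (h : (u ^ 2 - e ^ 2) * (u ^ 2 - 81 * e ^ 2) = m ^ 2) : False := by
  have hA0 : u ^ 2 - e ^ 2 ≠ 0 := by
    intro h0
    rw [h0, zero_mul] at h
    exact hm (pow_eq_zero_iff two_ne_zero |>.mp h.symm)
  have hpos : 0 < Int.gcd (u ^ 2 - e ^ 2) (u ^ 2 - 81 * e ^ 2) := Int.gcd_pos_of_ne_zero_left _ hA0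
  obtain ⟨d, A', B', hd, hg1, hAe, hBe⟩ := Int.exists_gcd_one' hpos
  have hd0 : (d : ℤ) ≠ 0 := by exact_mod_cast hd.ne'
  have hd80 : (d : ℤ) ∣ 80 := by
    obtain ⟨s, t, hst⟩ := hc.pow (m := 2) (n := 2)
    refine ⟨s * (81 * A' - B') + t * (A' - B'), ?_⟩
    linear_combination (-80) * hst + (81 * s + t) * hAe - (s + t) * hBe
  have hdm : (d : ℤ) ∣ m := by
    rw [← Int.pow_dvd_pow_iff (n := 2) two_ne_zero, ← h, hAe, hBe]
    exact ⟨A' * B', by ring⟩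
  obtain ⟨m', rfl⟩ := hdm
  have hm' : m' ≠ 0 := by
    rintro rfl; exact hm (by ring)
  have hAB' : A' * B' = m' ^ 2 := by
    apply mul_left_cancel₀ (pow_ne_zero 2 hd0)
    rw [hAe, hBe] at h
    linear_combination h
  obtain ⟨a, ha⟩ := Int.sq_of_gcd_eq_one hg1 hAB'
  obtain ⟨b, hb⟩ := Int.sq_of_gcd_eq_one (by rwa [Int.gcd_comm]) (by rw [mul_comm]; exact hAB')
  have hcAB : IsCoprime A' B' := Int.isCoprime_iff_gcd_eq_one.mpr hg1
  have haA : a ∣ A' := by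
    rcases ha with ha | ha
    · exact ⟨a, by rw [ha]; ring⟩
    · exact ⟨-a, by rw [ha]; ring⟩
  have hbB : b ∣ B' := by
    rcases hb with hb | hb
    · exact ⟨b, by rw [hb]; ring⟩
    · exact ⟨-b, by rw [hb]; ring⟩
  have hcab : IsCoprime a b := (hcAB.of_isCoprime_of_dvd_left haA).of_isCoprime_of_dvd_right hbB
  have ha0 : a ≠ 0 := by
    rintro rfl
    have : A' = 0 := by rcases ha with ha | ha <;> rw [ha] <;> ring
    rw [this, zero_mul] at hAB'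
    exact hm' (pow_eq_zero_iff two_ne_zero |>.mp hAB'.symm)
  have hb0 : b ≠ 0 := by
    rintro rfl
    have : B' = 0 := by rcases hb with hb | hb <;> rw [hb] <;> ring
    rw [this, mul_zero] at hAB'
    exact hm' (pow_eq_zero_iff two_ne_zero |>.mp hAB'.symm)
  have pm := one_le_sq hm'
  have pab : 0 ≤ (a * b) ^ 2 := sq_nonneg _
  rcases ha with ha | ha <;> rcases hb with hb | hb
  · obtain ⟨U, E, V, W, r1, r2, r3, -⟩ := lemmaK u e a b d hu he ha0 hb0 hd80 hc hcab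
      (by rw [hAe, ha]; ring) (by rw [hBe, hb]; ring)
    exact no_concordant U E V W r3 r1 r2
  · rw [ha, hb] at hAB'
    nlinarith
  · rw [ha, hb] at hAB'
    nlinarith
  · obtain ⟨U, E, V, W, r1, r2, r3, -⟩ := lemmaK u e a b (-d) hu he ha0 hb0 (neg_dvd.mpr hd80) hc hcab
      (by rw [hAe, ha]; ring) (by rw [hBe, hb]; ring)
    exact no_concordant U E V W r3 r1 r2

theorem rational_points_Ea (x y : ℚ) (h : y ^ 2 = x * (x + 16) * (x + 25)) :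
    x = 0 ∨ x = -16 ∨ x = -25 ∨ x = 20 ∨ x = -20 := by
  by_contra hne
  simp only [not_or] at hne
  obtain ⟨hx0, hx16, hx25, hx20, hxm20⟩ := hne
  have hy : y ≠ 0 := by
    intro hy
    rw [hy] at h
    have h0 : x * (x + 16) * (x + 25) = 0 := by rw [← h]; ring
    rcases mul_eq_zero.mp h0 with h' | h'
    · rcases mul_eq_zero.mp h' with h'' | h''
      · exact hx0 h''
      · exact hx16 (by linarith)
    · exact hx25 (by linarith)
  obtain ⟨z, hz⟩ : ∃ z : ℚ, z = y / x := ⟨_, rfl⟩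
  obtain ⟨q, hq⟩ : ∃ q : ℚ, q = (x + 20) * (x - 20) / x := ⟨_, rfl⟩
  have hz0 : z ≠ 0 := by rw [hz]; exact div_ne_zero hy hx0
  have hq0 : q ≠ 0 := by
    rw [hq]
    refine div_ne_zero (mul_ne_zero ?_ ?_) hx0
    · intro h'; exact hxm20 (by linarith)
    · intro h'; exact hx20 (by linarith)
  have hzy : z * x = y := by rw [hz]; exact div_mul_cancel₀ y hx0
  have hzx : z ^ 2 * x = (x + 16) * (x + 25) := by
    apply mul_right_cancel₀ hx0
    calc z ^ 2 * x * x = (z * x) ^ 2 := by ring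
      _ = y ^ 2 := by rw [hzy]
      _ = (x + 16) * (x + 25) * x := by rw [h]; ring
  have hqx : q * x = (x + 20) * (x - 20) := by rw [hq]; exact div_mul_cancel₀ _ hx0
  have hzq : (z ^ 2 - 1) * (z ^ 2 - 81) = q ^ 2 := by
    apply mul_right_cancel₀ (pow_ne_zero 2 hx0)
    linear_combination (z ^ 2 * x + (x + 16) * (x + 25) - 82 * x) * hzx
      - (q * x + (x + 20) * (x - 20)) * hqx
  have hden : (z.den : ℚ) ≠ 0 := by exact_mod_cast z.den_nz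
  have hzn : z * (z.den : ℚ) = (z.num : ℚ) := Rat.mul_den_eq_num z
  have hcast : (((z.num ^ 2 - (z.den : ℤ) ^ 2) * (z.num ^ 2 - 81 * (z.den : ℤ) ^ 2) : ℤ) : ℚ)
      = (q * (z.den : ℚ) ^ 2) * (q * (z.den : ℚ) ^ 2) := by
    push_cast
    rw [← hzn]
    linear_combination (z.den : ℚ) ^ 4 * hzq
  obtain ⟨m, hm⟩ := Rat.isSquare_intCast_iff.mp ⟨_, hcast⟩
  have hm0 : m ≠ 0 := by
    rintro rfl
    rw [hm] at hcast
    have h0 : (q * (z.den : ℚ) ^ 2) * (q * (z.den : ℚ) ^ 2) = 0 := by rw [← hcast]; simp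
    have h1 : q * (z.den : ℚ) ^ 2 = 0 := mul_self_eq_zero.mp h0
    exact (mul_ne_zero hq0 (pow_ne_zero 2 hden)) h1
  exact lemmaSq z.num z.den m z.isCoprime_num_den (Rat.num_ne_zero.mpr hz0)
    (by exact_mod_cast z.den_nz) hm0 (by rw [hm]; ring)

end Fermat.Agent.S51lib
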