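import Fermat.Agent.S51lib.Count

set_option autoImplicit false
set_option linter.unusedSectionVars false

namespace Fermat.Agent.S51lib

open WeierstrassCurve WeierstrassCurve.Affine Polynomial

variable {K : Type*} [Field K] [DecidableEq K] [IsAlgClosed K] [CharZero K]

/-- over an algebraically closed field every abscissa is the abscissa of a point -/
theorem exists_point (E : WeierstrassCurve.Affine K) (hΔ : E.Δ ≠ 0) (x : K) :
    ∃ P : E.Point, P ≠ 0 ∧ xOf P = x := by
  obtain ⟨y, hy⟩ := IsAlgClosed.exists_root (yPoly E x) (by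
    rw [degree_eq_natDegree (yPoly_ne_zero x), yPoly_natDegree]; norm_num)
  have heq : E.Equation x y := by
    rw [equation_iff]
    simp only [yPoly, IsRoot, eval_add, eval_sub, eval_mul, eval_pow, eval_X, eval_C] at hy
    linear_combination hy
  have hns : E.Nonsingular x y := (equation_iff_nonsingular_of_Δ_ne_zero hΔ).mp heq
  exact ⟨Point.some x y hns, Point.some_ne_zero _, rfl⟩

theorem exists_three_torsion (E : WeierstrassCurve.Affine K) (hΔ : E.Δ ≠ 0) :
    ∃ P : E.Point, P ≠ 0 ∧ (3 : ℕ) • P = 0 := by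
  obtain ⟨x, hx⟩ := IsAlgClosed.exists_root (psi3P E) (by
    intro h
    have h1 : (psi3P E).natDegree = 0 := natDegree_eq_zero_iff_degree_le_zero.mpr h.le
    have h2 := psi3P_coeff (E := E)
    rw [coeff_eq_zero_of_natDegree_lt (by rw [h1]; norm_num)] at h2
    exact absurd h2.symm (by norm_num))
  obtain ⟨P, hP, hPx⟩ := exists_point E hΔ x
  refine ⟨P, hP, three_nsmul_of_psi3_eq_zero hP ?_⟩
  rw [hPx, ← psi3P_eval]
  exact hx

/-- the resultant-type polynomial eliminating `t` from `relI`, `relII` -/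
noncomputable def R6P (E : WeierstrassCurve.Affine K) : K[X] :=
  (C 6 * X + C E.b₂) ^ 2 * (X ^ 4 - C E.b₄ * X ^ 2 - C (3 * E.b₆) * X - C (2 * E.b₈))
  - (C 6 * X + C E.b₂) * (X ^ 3 - C E.b₄ * X - C E.b₆) * (C 8 * X ^ 2 + C E.b₂ * X + C (2 * E.b₄))
  + C 10 * (X ^ 3 - C E.b₄ * X - C E.b₆) ^ 2

theorem R6P_coeff (E : WeierstrassCurve.Affine K) : (R6P E).coeff 6 = -2 := by
  unfold R6P; compute_degree!

theorem R6P_eval (E : WeierstrassCurve.Affine K) (s : K) : (R6P E).eval s =
    (6 * s + E.b₂) ^ 2 * (s ^ 4 - E.b₄ * s ^ 2 - 3 * E.b₆ * s - 2 * E.b₈)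
    - (6 * s + E.b₂) * (s ^ 3 - E.b₄ * s - E.b₆) * (8 * s ^ 2 + E.b₂ * s + 2 * E.b₄)
    + 10 * (s ^ 3 - E.b₄ * s - E.b₆) ^ 2 := by
  simp only [R6P, eval_add, eval_sub, eval_mul, eval_pow, eval_X, eval_C]

/-- the quadratic `relII E s t` in `t` -/
noncomputable def Q2P (E : WeierstrassCurve.Affine K) (s : K) : K[X] :=
  C 10 * X ^ 2 - C (8 * s ^ 2 + E.b₂ * s + 2 * E.b₄) * X
    + C (s ^ 4 - E.b₄ * s ^ 2 - 3 * E.b₆ * s - 2 * E.b₈)

theorem Q2P_coeff (E : WeierstrassCurve.Affine K) (s : K) : (Q2P E s).coeff 2 = 10 := by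
  unfold Q2P; compute_degree!

theorem Q2P_eval (E : WeierstrassCurve.Affine K) (s t : K) : (Q2P E s).eval t = relII E s t := by
  simp only [Q2P, relII, eval_add, eval_sub, eval_mul, eval_pow, eval_X, eval_C]
  ring

theorem exists_relI_relII (E : WeierstrassCurve.Affine K) :
    ∃ s t : K, relI E s t = 0 ∧ relII E s t = 0 := by
  obtain ⟨s, hs⟩ := IsAlgClosed.exists_root (R6P E) (by
    intro h
    have h1 : (R6P E).natDegree = 0 := natDegree_eq_zero_iff_degree_le_zero.mpr h.le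
    have h2 := R6P_coeff E
    rw [coeff_eq_zero_of_natDegree_lt (by rw [h1]; norm_num)] at h2
    exact absurd h2.symm (by norm_num))
  have hs' := R6P_eval E s
  rw [show (R6P E).eval s = 0 from hs] at hs'
  by_cases h6 : 6 * s + E.b₂ = 0
  · have hT : s ^ 3 - E.b₄ * s - E.b₆ = 0 := by
      rw [h6] at hs'
      have : (s ^ 3 - E.b₄ * s - E.b₆) ^ 2 = 0 := by
        have h10 : (10 : K) ≠ 0 := by norm_num
        have h11 : (10 : K) * (s ^ 3 - E.b₄ * s - E.b₆) ^ 2 = 0 := by
          linear_combination -hs'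
        exact (mul_eq_zero.mp h11).resolve_left h10
      exact pow_eq_zero_iff two_ne_zero |>.mp this
    obtain ⟨t, ht⟩ := IsAlgClosed.exists_root (Q2P E s) (by
      intro h
      have h1 : (Q2P E s).natDegree = 0 := natDegree_eq_zero_iff_degree_le_zero.mpr h.le
      have h2 := Q2P_coeff E s
      rw [coeff_eq_zero_of_natDegree_lt (by rw [h1]; norm_num)] at h2
      exact absurd h2.symm (by norm_num))
    refine ⟨s, t, ?_, ?_⟩
    · simp only [relI]
      linear_combination hT - t * h6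
    · rw [← Q2P_eval]; exact ht
  · refine ⟨s, (s ^ 3 - E.b₄ * s - E.b₆) / (6 * s + E.b₂), ?_, ?_⟩
    · have h7 : (s ^ 3 - E.b₄ * s - E.b₆) / (6 * s + E.b₂) * (6 * s + E.b₂) =
          s ^ 3 - E.b₄ * s - E.b₆ := div_mul_cancel₀ _ h6
      simp only [relI]
      linear_combination -h7
    · have : (6 * s + E.b₂) ^ 2 * relII E s ((s ^ 3 - E.b₄ * s - E.b₆) / (6 * s + E.b₂)) = 0 := by
        rw [hs']
        simp only [relII]
        field_simp
        ring
      exact (mul_eq_zero.mp this).resolve_left (pow_ne_zero 2 h6)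

theorem exists_five_torsion (E : WeierstrassCurve.Affine K) (hΔ : E.Δ ≠ 0) :
    ∃ P : E.Point, P ≠ 0 ∧ (5 : ℕ) • P = 0 := by
  obtain ⟨s, t, hI, hII⟩ := exists_relI_relII E
  -- roots of `X^2 - s X + t`
  obtain ⟨x₁, hx₁⟩ := IsAlgClosed.exists_root (X ^ 2 - C s * X + C t : K[X]) (by
    have : (X ^ 2 - C s * X + C t : K[X]).degree = 2 := by compute_degree!
    rw [this]; norm_num)
  simp only [IsRoot, eval_add, eval_sub, eval_mul, eval_pow, eval_X, eval_C] at hx₁
  set x₂ := s - x₁ with hx₂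
  have hs : s = x₁ + x₂ := by rw [hx₂]; ring
  have ht : t = x₁ * x₂ := by rw [hx₂]; linear_combination hx₁
  rw [hs, ht] at hI hII
  obtain ⟨P, hP, hPx⟩ := exists_point E hΔ x₁
  have hne : x₁ ≠ x₂ := by
    intro h
    rw [← h] at hI hII
    have hg : gD E x₁ = 0 := by
      simp only [relI] at hI
      simp only [gD]
      linear_combination -hI
    have h3 : psi3 E x₁ = 0 := by
      simp only [relII] at hII
      simp only [psi3]
      have h2 : (2 : K) ≠ 0 := two_ne_zero
      have h4 : (2 : K) * (3 * x₁ ^ 4 + E.b₂ * x₁ ^ 3 + 3 * E.b₄ * x₁ ^ 2 + 3 * E.b₆ * x₁ + E.b₈)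
          = 0 := by
        linear_combination -hII
      exact (mul_eq_zero.mp h4).resolve_left h2
    have hf : fD E x₁ = 0 := by
      rw [psi3_eq, hg, mul_zero] at h3
      linear_combination -h3
    rcases P with _ | ⟨x, y, hxy⟩
    · exact hP rfl
    · simp only [xOf_some] at hPx
      rw [← hPx] at hg hf
      exact fD_ne_zero_of_gD_eq_zero hxy hg hf
  obtain ⟨h1, h2⟩ := rel_of_relI_relII hI hII
  refine ⟨P, hP, five_nsmul_of_rel (x₂ := x₂) hP ?_ ?_ ?_⟩
  · rw [hPx]; exact h1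
  · rw [hPx]; exact h2
  · rw [hPx]; exact hne

end Fermat.Agent.S51lib
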