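import Mathlib

namespace Fermat.Agent.S51lib

/-- No rational number squares to `45`. -/
theorem sq_ne_45 (q : ℚ) : q ^ 2 ≠ 45 := by
  intro h
  have h1 : IsSquare (45 : ℚ) := ⟨q, by rw [← h]; ring⟩
  rw [Rat.isSquare_iff] at h1
  have h2 : IsSquare (45 : ℤ) := by simpa using h1.1
  obtain ⟨k, hk⟩ := h2
  have h3 : k ≤ 7 := by nlinarith
  have h4 : -7 ≤ k := by nlinarith
  interval_cases k <;> omega

/-- Normalised form of the system. -/
theorem core_normalised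
    (hEa : ∀ x y : ℚ, y ^ 2 = x * (x + 16) * (x + 25) →
      x = 0 ∨ x = -16 ∨ x = -25 ∨ x = 20 ∨ x = -20)
    (e s t : ℚ) (he27 : e ≠ 27)
    (hI : s ^ 3 - 6 * t * s = e * (s + t + 1))
    (hII : s ^ 4 - 8 * t * s ^ 2 + 10 * t ^ 2 = e * (t * s + s ^ 2 + 2 * t + 3 * s))
    (hst : s ^ 2 - 4 * t ≠ 0) :
    e = 25 ∨ e = -5 ∨ e = 135 / 32 ∨ e = -675 / 2 := by
  have hQ : s ^ 4 + 2 * t * s ^ 3 + t ^ 2 * s ^ 2 - 11 * t ^ 2 * s - 5 * t * s ^ 2
      - 5 * t ^ 3 - 5 * t ^ 2 = 0 := by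
    linear_combination (1 / 2) * (t * s + s ^ 2 + 2 * t + 3 * s) * hI - (1 / 2) * (s + t + 1) * hII
  by_cases hs : s = 0
  · subst hs
    have h1 : t ^ 2 * (t + 1) = 0 := by linear_combination (-1 / 5) * hQ
    have ht : t ≠ 0 := by
      intro ht
      apply hst
      rw [ht]; ring
    have h2 : t + 1 = 0 := by
      rcases mul_eq_zero.mp h1 with h | h
      · exact absurd (pow_eq_zero_iff (two_ne_zero)|>.mp h) ht
      · exact h
    have h3 : t = -1 := by linear_combination h2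
    subst h3
    right; left
    linarith
  · have hx := hEa (-100 * t / s ^ 2)
      (10 * (100 * t ^ 2 / s ^ 3 + 110 * t / s ^ 2 - 20 * t / s - 20)) (by
        field_simp
        linear_combination (40000 * s ^ 2 - 200000 * t) * hQ)
    have hs2 : s ^ 2 ≠ 0 := pow_ne_zero 2 hs
    have hs4 : s ^ 4 ≠ 0 := pow_ne_zero 4 hs
    rcases hx with hx | hx | hx | hx | hx
    · -- t = 0
      exfalso
      have ht : t = 0 := by
        field_simp at hx
        linarith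
      subst ht
      apply hs4
      linear_combination hQ
    · -- 100 t = 16 s^2
      have ht : t = 4 / 25 * s ^ 2 := by
        field_simp at hx
        linarith
      subst ht
      have h1 : s ^ 4 * (4 * s + 15) ^ 2 = 0 := by linear_combination 3125 * hQ
      have h2 : 4 * s + 15 = 0 := by
        rcases mul_eq_zero.mp h1 with h | h
        · exact absurd h hs4
        · exact pow_eq_zero_iff (two_ne_zero) |>.mp h
      have h3 : s = -15 / 4 := by linear_combination (1 / 4) * h2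
      subst h3
      right; right; left
      linarith
    · -- 100 t = 25 s^2
      exfalso
      apply hst
      field_simp at hx
      linarith
    · -- 100 t = -20 s^2
      have ht : t = -1 / 5 * s ^ 2 := by
        field_simp at hx
        linarith
      subst ht
      have h1 : s ^ 4 * ((2 * s - 15) * (s - 3)) = 0 := by linear_combination 25 * hQ
      have h2 : (2 * s - 15) * (s - 3) = 0 := by
        rcases mul_eq_zero.mp h1 with h | h
        · exact absurd h hs4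
        · exact h
      rcases mul_eq_zero.mp h2 with h | h
      · have h3 : s = 15 / 2 := by linear_combination (1 / 2) * h
        subst h3
        right; right; right
        linarith
      · have h3 : s = 3 := by linear_combination h
        subst h3
        exfalso
        apply he27
        linarith
    · -- 100 t = 20 s^2
      have ht : t = 1 / 5 * s ^ 2 := by
        field_simp at hx
        linarith
      subst ht
      have h1 : s ^ 4 * (s + 5) = 0 := by linear_combination (-25) * hQ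
      have h2 : s + 5 = 0 := by
        rcases mul_eq_zero.mp h1 with h | h
        · exact absurd h hs4
        · exact h
      have h3 : s = -5 := by linear_combination h2
      subst h3
      left
      linarith

/-- The case `x0 = 0`, `b8 = 0`. -/
theorem core_shifted
    (hEa : ∀ x y : ℚ, y ^ 2 = x * (x + 16) * (x + 25) →
      x = 0 ∨ x = -16 ∨ x = -25 ∨ x = 20 ∨ x = -20)
    (b2 b4 b6 s t : ℚ) (hb : b2 * b6 = b4 ^ 2)
    (hΔ : - 8 * b4 ^ 3 - 27 * b6 ^ 2 + 9 * b2 * b4 * b6 ≠ 0)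
    (hI : s ^ 3 - 6 * t * s - b2 * t - b4 * s - b6 = 0)
    (hII : s ^ 4 - 8 * t * s ^ 2 + 10 * t ^ 2 - b2 * t * s - b4 * s ^ 2 - 2 * b4 * t
      - 3 * b6 * s = 0)
    (hst : s ^ 2 - 4 * t ≠ 0) :
    2 * (b2 ^ 2 - 24 * b4) ^ 3 = -25 * (- 8 * b4 ^ 3 - 27 * b6 ^ 2 + 9 * b2 * b4 * b6) ∨
    32 * (b2 ^ 2 - 24 * b4) ^ 3 = -121945 * (- 8 * b4 ^ 3 - 27 * b6 ^ 2 + 9 * b2 * b4 * b6) ∨
    32768 * (b2 ^ 2 - 24 * b4) ^ 3
      = 46969655 * (- 8 * b4 ^ 3 - 27 * b6 ^ 2 + 9 * b2 * b4 * b6) ∨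
    8 * (b2 ^ 2 - 24 * b4) ^ 3
      = -349938025 * (- 8 * b4 ^ 3 - 27 * b6 ^ 2 + 9 * b2 * b4 * b6) := by
  have hb6 : b6 ≠ 0 := by
    intro h
    subst h
    have h4 : b4 = 0 := by
      have : b4 ^ 2 = 0 := by linear_combination -hb
      exact pow_eq_zero_iff (two_ne_zero) |>.mp this
    subst h4
    apply hΔ
    ring
  obtain ⟨μ, hμ⟩ : ∃ μ : ℚ, b4 = μ * b6 := ⟨b4 / b6, by field_simp⟩
  subst hμ
  have hb2 : b2 = μ ^ 2 * b6 := by
    apply mul_right_cancel₀ hb6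
    linear_combination hb
  subst hb2
  by_cases hμ0 : μ = 0
  · exfalso
    subst hμ0
    have h1 : s ^ 4 - 5 * t * s ^ 2 - 5 * t ^ 2 = 0 := by
      linear_combination (-1 / 2) * hII + (3 / 2) * s * hI
    by_cases hs : s = 0
    · subst hs
      have ht : t = 0 := by
        have : t ^ 2 = 0 := by linear_combination (-1 / 5) * h1
        exact pow_eq_zero_iff (two_ne_zero) |>.mp this
      apply hst
      rw [ht]; ring
    · apply sq_ne_45 (10 * t / s ^ 2 + 5)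
      field_simp
      linear_combination (-20) * h1
  · have key : ((μ ^ 2 * b6) ^ 2 - 24 * (μ * b6)) ^ 3 * (μ ^ 3 * b6 - 27)
        = (μ ^ 3 * b6) * (μ ^ 3 * b6 - 24) ^ 3 *
          (- 8 * (μ * b6) ^ 3 - 27 * b6 ^ 2 + 9 * (μ ^ 2 * b6) * (μ * b6) * b6) := by
      ring
    have he27 : μ ^ 3 * b6 ≠ 27 := by
      intro h
      apply hΔ
      linear_combination b6 ^ 2 * h
    have hc := core_normalised hEa (μ ^ 3 * b6) (μ * s) (μ ^ 2 * t) he27
      (by linear_combination μ ^ 3 * hI) (by linear_combination μ ^ 4 * hII)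
      (by
        intro h
        apply hst
        have : μ ^ 2 * (s ^ 2 - 4 * t) = 0 := by linear_combination h
        rcases mul_eq_zero.mp this with h | h
        · exact absurd (pow_eq_zero_iff (two_ne_zero) |>.mp h) hμ0
        · exact h)
    rcases hc with hc | hc | hc | hc
    · rw [hc] at key
      left
      linarith
    · rw [hc] at key
      right; left
      linarith
    · rw [hc] at key
      right; right; left
      linarith
    · rw [hc] at key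
      right; right; right
      linarith

theorem diophantine_core
    (hEa : ∀ x y : ℚ, y ^ 2 = x * (x + 16) * (x + 25) → x = 0 ∨ x = -16 ∨ x = -25 ∨ x = 20 ∨ x = -20)
    (b2 b4 b6 b8 x0 s t : ℚ) (hb : 4 * b8 = b2 * b6 - b4 ^ 2)
    (hΔ : -b2 ^ 2 * b8 - 8 * b4 ^ 3 - 27 * b6 ^ 2 + 9 * b2 * b4 * b6 ≠ 0)
    (h3 : 3 * x0 ^ 4 + b2 * x0 ^ 3 + 3 * b4 * x0 ^ 2 + 3 * b6 * x0 + b8 = 0)
    (hI : s ^ 3 - 6 * t * s - b2 * t - b4 * s - b6 = 0)
    (hII : s ^ 4 - 8 * t * s ^ 2 + 10 * t ^ 2 - b2 * t * s - b4 * s ^ 2 - 2 * b4 * t - 3 * b6 * s - 2 * b8 = 0)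
    (hst : s ^ 2 - 4 * t ≠ 0) :
    2 * (b2 ^ 2 - 24 * b4) ^ 3 = -25 * (-b2 ^ 2 * b8 - 8 * b4 ^ 3 - 27 * b6 ^ 2 + 9 * b2 * b4 * b6) ∨
    32 * (b2 ^ 2 - 24 * b4) ^ 3 = -121945 * (-b2 ^ 2 * b8 - 8 * b4 ^ 3 - 27 * b6 ^ 2 + 9 * b2 * b4 * b6) ∨
    32768 * (b2 ^ 2 - 24 * b4) ^ 3 = 46969655 * (-b2 ^ 2 * b8 - 8 * b4 ^ 3 - 27 * b6 ^ 2 + 9 * b2 * b4 * b6) ∨
    8 * (b2 ^ 2 - 24 * b4) ^ 3 = -349938025 * (-b2 ^ 2 * b8 - 8 * b4 ^ 3 - 27 * b6 ^ 2 + 9 * b2 * b4 * b6) := by
  have hc4 : (b2 + 12 * x0) ^ 2 - 24 * (b4 + x0 * b2 + 6 * x0 ^ 2) = b2 ^ 2 - 24 * b4 := by ring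
  have hD : - 8 * (b4 + x0 * b2 + 6 * x0 ^ 2) ^ 3
      - 27 * (b6 + 2 * x0 * b4 + x0 ^ 2 * b2 + 4 * x0 ^ 3) ^ 2
      + 9 * (b2 + 12 * x0) * (b4 + x0 * b2 + 6 * x0 ^ 2)
        * (b6 + 2 * x0 * b4 + x0 ^ 2 * b2 + 4 * x0 ^ 3)
      = -b2 ^ 2 * b8 - 8 * b4 ^ 3 - 27 * b6 ^ 2 + 9 * b2 * b4 * b6 := by
    linear_combination (b2 + 12 * x0) ^ 2 * h3 - (6 * b2 * x0 + 36 * x0 ^ 2) * hb
  have := core_shifted hEa (b2 + 12 * x0) (b4 + x0 * b2 + 6 * x0 ^ 2)
    (b6 + 2 * x0 * b4 + x0 ^ 2 * b2 + 4 * x0 ^ 3) (s - 2 * x0) (t - s * x0 + x0 ^ 2)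
    (by linear_combination 4 * h3 - hb)
    (by rw [hD]; exact hΔ)
    (by linear_combination hI)
    (by linear_combination hII + 2 * h3)
    (by
      intro h
      apply hst
      linear_combination h)
  rw [hc4, hD] at this
  exact this

end Fermat.Agent.S51lib
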