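import Mathlib

set_option autoImplicit false

namespace Fermat.Agent.S51lib

private theorem five_dvd_aux (c4 D k m : ℤ) (hk : IsCoprime (5 : ℤ) k) (hm : IsCoprime (5 : ℤ) m)
    (h : k * c4 ^ 3 = 5 * m * D ∨ k * c4 ^ 3 = 25 * m * D) : (5 : ℤ) ∣ D ∧ (5 : ℤ) ∣ c4 := by
  have hp : Prime (5 : ℤ) := by norm_num
  have h5 : (5 : ℤ) ∣ c4 := by
    have h1 : (5 : ℤ) ∣ k * c4 ^ 3 := by
      rcases h with h | h
      · exact ⟨m * D, by rw [h]; ring⟩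
      · exact ⟨5 * m * D, by rw [h]; ring⟩
    exact hp.dvd_of_dvd_pow (hk.dvd_of_dvd_mul_left h1)
  refine ⟨?_, h5⟩
  obtain ⟨d, rfl⟩ := h5
  rcases h with h | h
  · have h2 : (5 : ℤ) ∣ m * D := ⟨5 * k * d ^ 3, by linarith⟩
    exact hm.dvd_of_dvd_mul_left h2
  · have h2 : (5 : ℤ) ∣ m * D := ⟨k * d ^ 3, by linarith⟩
    exact hm.dvd_of_dvd_mul_left h2

theorem five_dvd_of_rel (c4 D : ℤ)
    (h : 2 * c4 ^ 3 = -25 * D ∨ 32 * c4 ^ 3 = -121945 * D ∨ 32768 * c4 ^ 3 = 46969655 * D ∨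
      8 * c4 ^ 3 = -349938025 * D) : (5 : ℤ) ∣ D ∧ (5 : ℤ) ∣ c4 := by
  rcases h with h | h | h | h
  · exact five_dvd_aux c4 D 2 (-1) (by rw [Int.isCoprime_iff_gcd_eq_one]; decide)
      (by rw [Int.isCoprime_iff_gcd_eq_one]; decide) (Or.inr (by rw [h]; ring))
  · exact five_dvd_aux c4 D 32 (-24389) (by rw [Int.isCoprime_iff_gcd_eq_one]; decide)
      (by rw [Int.isCoprime_iff_gcd_eq_one]; decide) (Or.inl (by rw [h]; ring))
  · exact five_dvd_aux c4 D 32768 9393931 (by rw [Int.isCoprime_iff_gcd_eq_one]; decide)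
      (by rw [Int.isCoprime_iff_gcd_eq_one]; decide) (Or.inl (by rw [h]; ring))
  · exact five_dvd_aux c4 D 8 (-13997521) (by rw [Int.isCoprime_iff_gcd_eq_one]; decide)
      (by rw [Int.isCoprime_iff_gcd_eq_one]; decide) (Or.inr (by rw [h]; ring))

end Fermat.Agent.S51lib
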