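import Fermat.Agent.S51lib.Galois
import Fermat.Agent.S51lib.Core
import Fermat.Agent.S51lib.PartC
import Fermat.Prelude.Def_FLTPrelim_ModularRep

set_option autoImplicit false

namespace Fermat.Agent.S51lib

open WeierstrassCurve WeierstrassCurve.Affine WeierstrassCurve.Affine.Point

theorem isGalois_ratAlgebra :
    @IsGalois ℚ _ (AlgebraicClosure ℚ) _ DivisionRing.toRatAlgebra := by
  have h : (DivisionRing.toRatAlgebra : Algebra ℚ (AlgebraicClosure ℚ)) =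
      AlgebraicClosure.instAlgebra ℚ := Subsingleton.elim _ _
  rw [h]
  infer_instance

theorem main_of
    (hEa : ∀ x y : ℚ, y ^ 2 = x * (x + 16) * (x + 25) →
      x = 0 ∨ x = -16 ∨ x = -25 ∨ x = 20 ∨ x = -20)
    (h3 : ∀ E : WeierstrassCurve.Affine (AlgebraicClosure ℚ), E.Δ ≠ 0 →
      ∃ P : E.Point, P ≠ 0 ∧ (3 : ℕ) • P = 0)
    (h5 : ∀ E : WeierstrassCurve.Affine (AlgebraicClosure ℚ), E.Δ ≠ 0 →
      ∃ P : E.Point, P ≠ 0 ∧ (5 : ℕ) • P = 0)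
    (W : WeierstrassCurve ℤ) (hΔ : W.Δ ≠ 0) (hW : W.IsSemistableModel) :
    W.ModRepIsIrreducible 3 ∨ W.ModRepIsIrreducible 5 := by
  by_contra h
  push Not at h
  obtain ⟨n3, n5⟩ := h
  unfold ModRepIsIrreducible at n3 n5
  have hgal := isGalois_ratAlgebra
  set W' : WeierstrassCurve.Affine ℚ := W.map (Int.castRingHom ℚ) with hW'
  have hΔ' : W'.Δ ≠ 0 := by
    rw [hW', WeierstrassCurve.map_Δ]
    simpa using hΔ
  have hΔK : (W'⁄(AlgebraicClosure ℚ)).Δ ≠ 0 := by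
    rw [bc_Δ]
    simpa using hΔ'
  have hnt3 : Nontrivial (Submodule.torsionBy ℤ (W'⁄(AlgebraicClosure ℚ)).Point ((3 : ℕ) : ℤ)) := by
    obtain ⟨P, hP, hP3⟩ := h3 _ hΔK
    exact ⟨⟨⟨P, (mem_torsionBy_nat _).2 hP3⟩, 0, fun h => hP (congrArg Subtype.val h)⟩⟩
  have hnt5 : Nontrivial (Submodule.torsionBy ℤ (W'⁄(AlgebraicClosure ℚ)).Point ((5 : ℕ) : ℤ)) := by
    obtain ⟨P, hP, hP5⟩ := h5 _ hΔK
    exact ⟨⟨⟨P, (mem_torsionBy_nat _).2 hP5⟩, 0, fun h => hP (congrArg Subtype.val h)⟩⟩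
  obtain ⟨x0, hx0⟩ := exists_rational_three n3 hnt3
  obtain ⟨s, t, hI, hII, hst⟩ := exists_rational_five n5 hnt5
  have key := diophantine_core hEa W'.b₂ W'.b₄ W'.b₆ W'.b₈ x0 s t W'.b_relation hΔ' hx0 hI hII hst
  have hc4 : W'.b₂ ^ 2 - 24 * W'.b₄ = ((W.c₄ : ℤ) : ℚ) := by
    have : W'.c₄ = ((W.c₄ : ℤ) : ℚ) := by
      rw [hW', WeierstrassCurve.map_c₄]; rfl
    rw [← this]; rfl
  have hD : -W'.b₂ ^ 2 * W'.b₈ - 8 * W'.b₄ ^ 3 - 27 * W'.b₆ ^ 2 + 9 * W'.b₂ * W'.b₄ * W'.b₆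
      = ((W.Δ : ℤ) : ℚ) := by
    have : W'.Δ = ((W.Δ : ℤ) : ℚ) := by
      rw [hW', WeierstrassCurve.map_Δ]; rfl
    rw [← this]; rfl
  rw [hc4, hD] at key
  have key' : 2 * W.c₄ ^ 3 = -25 * W.Δ ∨ 32 * W.c₄ ^ 3 = -121945 * W.Δ ∨
      32768 * W.c₄ ^ 3 = 46969655 * W.Δ ∨ 8 * W.c₄ ^ 3 = -349938025 * W.Δ := by
    exact_mod_cast key
  obtain ⟨d1, d2⟩ := five_dvd_of_rel W.c₄ W.Δ key'
  exact hW 5 (by norm_num) (by exact_mod_cast d1) (by exact_mod_cast d2)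

end Fermat.Agent.S51lib
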