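import Mathlib

set_option autoImplicit false

namespace Fermat.Agent.S51lib

theorem exists_generator_of_proper {p : ℕ} [Fact p.Prime] {V : Type*} [AddCommGroup V]
    [Module (ZMod p) V] [Finite V] (hcard : Nat.card V < p ^ 3) (N : Submodule (ZMod p) V)
    (h0 : N ≠ ⊥) (h1 : N ≠ ⊤) :
    ∃ v ∈ N, v ≠ 0 ∧ ∀ w ∈ N, ∃ k : ℕ, w = k • v := by
  have hp : 1 < p := (Fact.out : p.Prime).one_lt
  haveI : Module.Finite (ZMod p) V := Module.Finite.of_finite
  have hc : Nat.card V = p ^ Module.finrank (ZMod p) V := by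
    have := Module.natCard_eq_pow_finrank (K := ZMod p) (V := V)
    rwa [Nat.card_zmod] at this
  have h2 : Module.finrank (ZMod p) V < 3 := by
    rw [hc] at hcard
    exact (Nat.pow_lt_pow_iff_right hp).1 hcard
  have h3 : Module.finrank (ZMod p) N < Module.finrank (ZMod p) V := Submodule.finrank_lt h1
  have h4 : Module.finrank (ZMod p) N ≠ 0 := by
    intro h
    exact h0 (Submodule.finrank_eq_zero.1 h)
  have h5 : Module.finrank (ZMod p) N = 1 := by omega
  obtain ⟨v, hv, hw⟩ := finrank_eq_one_iff'.1 h5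
  refine ⟨v, v.2, fun h => hv (Subtype.ext h), fun w hwN => ?_⟩
  obtain ⟨c, hc⟩ := hw ⟨w, hwN⟩
  refine ⟨c.val, ?_⟩
  have : w = c • (v : V) := by
    have := congrArg Subtype.val hc
    simpa using this.symm
  rw [this, ← Nat.cast_smul_eq_nsmul (ZMod p), ZMod.natCast_zmod_val]

end Fermat.Agent.S51lib
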