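import Fermat.Agent.S51lib.Count
import Fermat.Agent.S51lib.LinAlg
import Fermat.Prelude.Def_FLTPrelim_GaloisRep

set_option autoImplicit false
set_option linter.unusedSectionVars false

namespace Fermat.Agent.S51lib

open WeierstrassCurve WeierstrassCurve.Affine WeierstrassCurve.Affine.Point

theorem mem_torsionBy_nat {K : Type*} [Field K] [DecidableEq K] (E : WeierstrassCurve.Affine K)
    {n : ℕ} {P : E.Point} :
    P ∈ Submodule.torsionBy ℤ E.Point (n : ℤ) ↔ n • P = 0 := by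
  rw [Submodule.mem_torsionBy_iff, Nat.cast_smul_eq_nsmul]

section card

variable {K : Type*} [Field K] [DecidableEq K] [CharZero K] (E : WeierstrassCurve.Affine K)

theorem card_torsion_three : Finite (Submodule.torsionBy ℤ E.Point ((3 : ℕ) : ℤ)) ∧
    Nat.card (Submodule.torsionBy ℤ E.Point ((3 : ℕ) : ℤ)) < 3 ^ 3 := by
  obtain ⟨h1, h2⟩ := card_le_of_roots (E := E) (psi3P_ne_zero (E := E))
    (Submodule.torsionBy ℤ E.Point ((3 : ℕ) : ℤ) : Set E.Point) (by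
      intro P hP hP0
      rw [psi3P_eval]
      exact psi3_eq_zero_of_three_nsmul hP0 ((mem_torsionBy_nat E).1 hP))
  refine ⟨h1, lt_of_le_of_lt h2 ?_⟩
  have := psi3P_natDegree_le (E := E)
  omega

theorem card_torsion_five : Finite (Submodule.torsionBy ℤ E.Point ((5 : ℕ) : ℤ)) ∧
    Nat.card (Submodule.torsionBy ℤ E.Point ((5 : ℕ) : ℤ)) < 5 ^ 3 := by
  obtain ⟨h1, h2⟩ := card_le_of_roots (E := E) (H16P_ne_zero (E := E))
    (Submodule.torsionBy ℤ E.Point ((5 : ℕ) : ℤ) : Set E.Point) (by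
      intro P hP hP0
      obtain ⟨e1, e2, -⟩ := five_torsion_rel hP0 ((mem_torsionBy_nat E).1 hP)
      exact H16P_eval_eq_zero e1 e2)
  refine ⟨h1, lt_of_le_of_lt h2 ?_⟩
  have := H16P_natDegree_le (E := E)
  omega

end card

section galois

variable {F K : Type*} [Field F] [Field K] [DecidableEq K] [Algebra F K]
  {W' : WeierstrassCurve.Affine F}

theorem xOf_smul (σ : K ≃ₐ[F] K) (P : (W'⁄K).Point) : xOf (σ • P) = σ (xOf P) := by
  rcases P with _ | ⟨x, y, h⟩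
  · exact (map_zero σ).symm
  · rfl

theorem smul_ne_zero_of_ne_zero (σ : K ≃ₐ[F] K) {P : (W'⁄K).Point} (hP : P ≠ 0) : σ • P ≠ 0 := by
  intro h
  apply hP
  have : σ⁻¹ • (σ • P) = 0 := by rw [h, smul_zero]
  rwa [inv_smul_smul] at this

theorem smul_nsmul' (σ : K ≃ₐ[F] K) (m : ℕ) (P : (W'⁄K).Point) : σ • (m • P) = m • (σ • P) :=
  (Point.map σ.toAlgHom).map_nsmul m P

theorem exists_stable_point {p : ℕ} [Fact p.Prime]
    (hfin : Finite (Submodule.torsionBy ℤ (W'⁄K).Point (p : ℤ)))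
    (hcard : Nat.card (Submodule.torsionBy ℤ (W'⁄K).Point (p : ℤ)) < p ^ 3)
    (N : Submodule (ZMod p) (Submodule.torsionBy ℤ (W'⁄K).Point p))
    (hN : IsGaloisStable F N) (h0 : N ≠ ⊥) (h1 : N ≠ ⊤) :
    ∃ P : (W'⁄K).Point, P ≠ 0 ∧ p • P = 0 ∧ ∀ σ : K ≃ₐ[F] K, ∃ k : ℕ, σ • P = k • P := by
  obtain ⟨v, hvN, hv0, hv⟩ := exists_generator_of_proper hcard N h0 h1
  refine ⟨v.1, fun h => hv0 (Subtype.ext h), (mem_torsionBy_nat _).1 v.2, fun σ => ?_⟩
  obtain ⟨k, hk⟩ := hv (σ • v) (hN σ v hvN)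
  refine ⟨k, ?_⟩
  have := congrArg Subtype.val hk
  exact this

theorem nsmul_mod_of {A : Type*} [AddMonoid A] {p : ℕ} {P : A} (hp : p • P = 0) (k : ℕ) :
    k • P = (k % p) • P := by
  conv_lhs => rw [← Nat.div_add_mod k p, add_nsmul, mul_nsmul, hp, nsmul_zero, zero_add]

theorem xOf_fixed_three {P : (W'⁄K).Point} (hP : P ≠ 0) (h3 : 3 • P = 0) (σ : K ≃ₐ[F] K) (k : ℕ)
    (hk : σ • P = k • P) : σ (xOf P) = xOf P := by
  have hne : (k % 3) • P ≠ 0 := by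
    rw [← nsmul_mod_of h3, ← hk]; exact smul_ne_zero_of_ne_zero σ hP
  rw [← xOf_smul, hk, nsmul_mod_of h3]
  have hlt : k % 3 < 3 := Nat.mod_lt _ (by norm_num)
  have h2 : 2 • P = -P := by
    apply eq_neg_of_add_eq_zero_left
    rw [← h3]; abel
  interval_cases (k % 3)
  · exact absurd (zero_nsmul P) hne
  · rw [one_nsmul]
  · rw [h2, xOf_neg]

theorem xOf_fixed_five {P : (W'⁄K).Point} (hP : P ≠ 0) (h5 : 5 • P = 0) (σ : K ≃ₐ[F] K) (k : ℕ)
    (hk : σ • P = k • P) :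
    (σ (xOf P) = xOf P ∧ σ (xOf (2 • P)) = xOf (2 • P)) ∨
    (σ (xOf P) = xOf (2 • P) ∧ σ (xOf (2 • P)) = xOf P) := by
  have hne : (k % 5) • P ≠ 0 := by
    rw [← nsmul_mod_of h5, ← hk]; exact smul_ne_zero_of_ne_zero σ hP
  rw [← xOf_smul, ← xOf_smul, smul_nsmul', hk, nsmul_mod_of h5]
  have hlt : k % 5 < 5 := Nat.mod_lt _ (by norm_num)
  have h4 : 4 • P = -P := by
    apply eq_neg_of_add_eq_zero_left
    rw [← h5]; abel
  have h3 : (3 : ℕ) • P = -((2 : ℕ) • P) := by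
    apply eq_neg_of_add_eq_zero_left
    rw [← h5]; abel
  interval_cases (k % 5)
  · exact absurd (zero_nsmul P) hne
  · left; rw [one_nsmul]; exact ⟨rfl, rfl⟩
  · right
    refine ⟨rfl, ?_⟩
    have : 2 • 2 • P = -P := by rw [← h4]; abel
    rw [this, xOf_neg]
  · right
    refine ⟨by rw [h3, xOf_neg], ?_⟩
    have : 2 • 3 • P = P := by
      have : 2 • 3 • P = 5 • P + P := by abel
      rw [this, h5, zero_add]
    rw [this]
  · left
    refine ⟨by rw [h4, xOf_neg], ?_⟩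
    have : (2 : ℕ) • (4 : ℕ) • P = -((2 : ℕ) • P) := by
      have : 2 • 4 • P = 5 • P + 3 • P := by abel
      rw [this, h5, zero_add, h3]
    rw [this, xOf_neg]

theorem bc_b₂ : (W'⁄K).b₂ = algebraMap F K W'.b₂ := WeierstrassCurve.map_b₂ W' (algebraMap F K)
theorem bc_b₄ : (W'⁄K).b₄ = algebraMap F K W'.b₄ := WeierstrassCurve.map_b₄ W' (algebraMap F K)
theorem bc_b₆ : (W'⁄K).b₆ = algebraMap F K W'.b₆ := WeierstrassCurve.map_b₆ W' (algebraMap F K)
theorem bc_b₈ : (W'⁄K).b₈ = algebraMap F K W'.b₈ := WeierstrassCurve.map_b₈ W' (algebraMap F K)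
theorem bc_Δ : (W'⁄K).Δ = algebraMap F K W'.Δ := WeierstrassCurve.map_Δ W' (algebraMap F K)

theorem psi3_baseChange (q : F) :
    psi3 (W'⁄K) (algebraMap F K q) = algebraMap F K (psi3 W' q) := by
  simp only [psi3, bc_b₂, bc_b₄, bc_b₆, bc_b₈, map_add, map_mul, map_pow, map_ofNat]

theorem relI_baseChange (s t : F) :
    relI (W'⁄K) (algebraMap F K s) (algebraMap F K t) = algebraMap F K (relI W' s t) := by
  simp only [relI, bc_b₂, bc_b₄, bc_b₆, map_sub, map_mul, map_pow, map_ofNat]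

theorem relII_baseChange (s t : F) :
    relII (W'⁄K) (algebraMap F K s) (algebraMap F K t) = algebraMap F K (relII W' s t) := by
  simp only [relII, bc_b₂, bc_b₄, bc_b₆, bc_b₈, map_add, map_sub, map_mul, map_pow, map_ofNat]

variable [IsGalois F K] [CharZero K]

theorem exists_rational_three
    (h : ¬ GaloisRepIsIrreducible (K := K) F W' 3)
    (hnt : Nontrivial (Submodule.torsionBy ℤ (W'⁄K).Point ((3 : ℕ) : ℤ))) :
    ∃ x0 : F, psi3 W' x0 = 0 := by
  have : Fact (Nat.Prime 3) := ⟨by norm_num⟩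
  unfold GaloisRepIsIrreducible at h
  push Not at h
  obtain ⟨N, hN, h0, h1⟩ := h hnt
  obtain ⟨hfin, hcard⟩ := card_torsion_three (W'⁄K)
  obtain ⟨P, hP, h3, hσ⟩ := exists_stable_point hfin hcard N hN h0 h1
  have hfix : ∀ σ : K ≃ₐ[F] K, σ (xOf P) = xOf P := by
    intro σ
    obtain ⟨k, hk⟩ := hσ σ
    exact xOf_fixed_three hP h3 σ k hk
  obtain ⟨q, hq⟩ := (InfiniteGalois.mem_range_algebraMap_iff_fixed (k := F) (xOf P)).2 hfix
  refine ⟨q, ?_⟩
  have := psi3_eq_zero_of_three_nsmul hP h3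
  rw [← hq, psi3_baseChange] at this
  exact (map_eq_zero _).1 this

theorem exists_rational_five
    (h : ¬ GaloisRepIsIrreducible (K := K) F W' 5)
    (hnt : Nontrivial (Submodule.torsionBy ℤ (W'⁄K).Point ((5 : ℕ) : ℤ))) :
    ∃ s t : F, relI W' s t = 0 ∧ relII W' s t = 0 ∧ s ^ 2 - 4 * t ≠ 0 := by
  have : Fact (Nat.Prime 5) := ⟨by norm_num⟩
  unfold GaloisRepIsIrreducible at h
  push Not at h
  obtain ⟨N, hN, h0, h1⟩ := h hnt
  obtain ⟨hfin, hcard⟩ := card_torsion_five (W'⁄K)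
  obtain ⟨P, hP, h5, hσ⟩ := exists_stable_point hfin hcard N hN h0 h1
  have hfixs : ∀ σ : K ≃ₐ[F] K, σ (xOf P + xOf (2 • P)) = xOf P + xOf (2 • P) := by
    intro σ
    obtain ⟨k, hk⟩ := hσ σ
    rcases xOf_fixed_five hP h5 σ k hk with ⟨e1, e2⟩ | ⟨e1, e2⟩
    · rw [map_add, e1, e2]
    · rw [map_add, e1, e2, add_comm]
  have hfixt : ∀ σ : K ≃ₐ[F] K, σ (xOf P * xOf (2 • P)) = xOf P * xOf (2 • P) := by
    intro σ
    obtain ⟨k, hk⟩ := hσ σ
    rcases xOf_fixed_five hP h5 σ k hk with ⟨e1, e2⟩ | ⟨e1, e2⟩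
    · rw [map_mul, e1, e2]
    · rw [map_mul, e1, e2, mul_comm]
  obtain ⟨s, hs⟩ := (InfiniteGalois.mem_range_algebraMap_iff_fixed (k := F) _).2 hfixs
  obtain ⟨t, ht⟩ := (InfiniteGalois.mem_range_algebraMap_iff_fixed (k := F) _).2 hfixt
  obtain ⟨e1, e2, hne⟩ := five_torsion_rel hP h5
  obtain ⟨r1, r2⟩ := relI_relII_of_rel e1 e2 hne
  rw [← hs, ← ht, relI_baseChange] at r1
  rw [← hs, ← ht, relII_baseChange] at r2
  refine ⟨s, t, (map_eq_zero _).1 r1, (map_eq_zero _).1 r2, ?_⟩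
  intro h0
  have := congrArg (algebraMap F K) h0
  rw [map_sub, map_pow, map_mul, hs, ht, _root_.map_zero, map_ofNat] at this
  apply hne
  have h2 : (xOf P - xOf (2 • P)) ^ 2 = 0 := by linear_combination this
  exact sub_eq_zero.1 (pow_eq_zero_iff (two_ne_zero) |>.1 h2)

end galois

end Fermat.Agent.S51lib
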