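import Fermat.Agent.S51lib.Dup

set_option autoImplicit false
set_option linter.unusedSectionVars false

namespace Fermat.Agent.S51lib

open WeierstrassCurve WeierstrassCurve.Affine

variable {K : Type*} [Field K] [DecidableEq K] {E : WeierstrassCurve.Affine K}

theorem psi3_eq_zero_of_three_nsmul {P : E.Point} (hP : P ≠ 0) (h3 : (3 : ℕ) • P = 0) :
    psi3 E (xOf P) = 0 := by
  have h2 : (2 : ℕ) • P = -P := by
    have : (3 : ℕ) • P = (2 : ℕ) • P + P := by rw [succ_nsmul]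
    rw [this] at h3
    exact eq_neg_of_add_eq_zero_left h3
  have h2ne : (2 : ℕ) • P ≠ 0 := by
    rw [h2]; exact neg_ne_zero.mpr hP
  obtain ⟨-, hd⟩ := xOf_two_nsmul hP h2ne
  rw [h2, xOf_neg] at hd
  rw [psi3_eq, hd, sub_self]

theorem three_nsmul_of_psi3_eq_zero {P : E.Point} (hP : P ≠ 0) (h3 : psi3 E (xOf P) = 0) :
    (3 : ℕ) • P = 0 := by
  have hg : gD E (xOf P) ≠ 0 := by
    intro hg
    rcases P with _ | ⟨x, y, h⟩
    · exact absurd rfl hP
    apply fD_ne_zero_of_gD_eq_zero h hg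
    rw [psi3_eq] at h3
    simp only [xOf_some] at h3 hg
    rw [hg] at h3
    linear_combination -h3
  have h2ne : (2 : ℕ) • P ≠ 0 := by
    rcases P with _ | ⟨x, y, h⟩
    · exact absurd rfl hP
    intro h0
    exact hg ((two_nsmul_eq_zero_iff h).mp h0)
  obtain ⟨-, hd⟩ := xOf_two_nsmul hP h2ne
  have hx : xOf ((2 : ℕ) • P) = xOf P := by
    rw [psi3_eq] at h3
    apply mul_right_cancel₀ hg
    rw [hd]
    linear_combination -h3
  rcases eq_or_eq_neg_of_xOf_eq h2ne hP hx with h | h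
  · exfalso
    apply hP
    rw [two_nsmul] at h
    exact left_eq_add.mp h.symm |> fun h' => h'
  · have : (3 : ℕ) • P = (2 : ℕ) • P + P := by rw [succ_nsmul]
    rw [this, h, neg_add_cancel]

/-- relations between the `x`-coordinates of `P` and `2P` for a point of order `5` -/
theorem five_torsion_rel {P : E.Point} (hP : P ≠ 0) (h5 : (5 : ℕ) • P = 0) :
    xOf ((2 : ℕ) • P) * gD E (xOf P) = fD E (xOf P) ∧
    xOf P * gD E (xOf ((2 : ℕ) • P)) = fD E (xOf ((2 : ℕ) • P)) ∧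
    xOf P ≠ xOf ((2 : ℕ) • P) := by
  have h2ne : (2 : ℕ) • P ≠ 0 := by
    intro h0
    apply hP
    have : (5 : ℕ) • P = (2 : ℕ) • ((2 : ℕ) • P) + P := by
      rw [← mul_nsmul, ← succ_nsmul]
    rw [this, h0, nsmul_zero, zero_add] at h5
    exact h5
  have h4 : (2 : ℕ) • ((2 : ℕ) • P) = -P := by
    have : (5 : ℕ) • P = (2 : ℕ) • ((2 : ℕ) • P) + P := by
      rw [← mul_nsmul, ← succ_nsmul]
    rw [this] at h5
    exact eq_neg_of_add_eq_zero_left h5
  have h4ne : (2 : ℕ) • ((2 : ℕ) • P) ≠ 0 := by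
    rw [h4]; exact neg_ne_zero.mpr hP
  obtain ⟨-, hd1⟩ := xOf_two_nsmul hP h2ne
  obtain ⟨-, hd2⟩ := xOf_two_nsmul h2ne h4ne
  rw [h4, xOf_neg] at hd2
  refine ⟨hd1, hd2, ?_⟩
  intro hx
  rcases eq_or_eq_neg_of_xOf_eq hP h2ne hx with h | h
  · apply hP
    rw [two_nsmul] at h
    exact left_eq_add.mp h
  · -- P = -2P so 3P = 0, with 5P = 0 gives P = 0
    have h3 : (3 : ℕ) • P = 0 := by
      have : (3 : ℕ) • P = (2 : ℕ) • P + P := by rw [succ_nsmul]
      rw [this]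
      nth_rewrite 2 [h]
      exact add_neg_cancel _
    apply hP
    have h6 : (6 : ℕ) • P = 0 := by
      have : (6 : ℕ) • P = (2 : ℕ) • ((3 : ℕ) • P) := by rw [← mul_nsmul]
      rw [this, h3, nsmul_zero]
    have : (6 : ℕ) • P = (5 : ℕ) • P + P := by rw [succ_nsmul]
    rw [this, h5, zero_add] at h6
    exact h6

theorem five_nsmul_of_rel {P : E.Point} (hP : P ≠ 0) {x₂ : K}
    (h1 : x₂ * gD E (xOf P) = fD E (xOf P)) (h2 : xOf P * gD E x₂ = fD E x₂)
    (hne : xOf P ≠ x₂) : (5 : ℕ) • P = 0 := by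
  have hg : gD E (xOf P) ≠ 0 := by
    intro hg
    rcases P with _ | ⟨x, y, h⟩
    · exact absurd rfl hP
    apply fD_ne_zero_of_gD_eq_zero h hg
    simp only [xOf_some] at h1 hg
    rw [← h1, hg, mul_zero]
  have h2ne : (2 : ℕ) • P ≠ 0 := by
    rcases P with _ | ⟨x, y, h⟩
    · exact absurd rfl hP
    intro h0
    exact hg ((two_nsmul_eq_zero_iff h).mp h0)
  obtain ⟨-, hd⟩ := xOf_two_nsmul hP h2ne
  have hx2 : xOf ((2 : ℕ) • P) = x₂ := by
    apply mul_right_cancel₀ hg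
    rw [hd, h1]
  set Q := (2 : ℕ) • P with hQ
  have hgQ : gD E (xOf Q) ≠ 0 := by
    intro hg'
    rcases hq : Q with _ | ⟨x, y, h⟩
    · exact h2ne hq
    rw [hq] at hg' hx2
    apply fD_ne_zero_of_gD_eq_zero h hg'
    simp only [xOf_some] at hg' hx2
    rw [hx2, ← h2, ← hx2, hg', mul_zero]
  have h4ne : (2 : ℕ) • Q ≠ 0 := by
    rcases hq : Q with _ | ⟨x, y, h⟩
    · exact absurd hq h2ne
    intro h0
    rw [hq] at hgQ
    exact hgQ ((two_nsmul_eq_zero_iff h).mp h0)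
  obtain ⟨-, hd'⟩ := xOf_two_nsmul h2ne h4ne
  have hx4 : xOf ((2 : ℕ) • Q) = xOf P := by
    apply mul_right_cancel₀ hgQ
    rw [hd', hx2, h2]
  have h5 : (5 : ℕ) • P = (2 : ℕ) • Q + P := by
    rw [hQ, ← mul_nsmul, ← succ_nsmul]
  rcases eq_or_eq_neg_of_xOf_eq h4ne hP hx4 with h | h
  · -- 4P = P, so 3P = 0, so 2P = -P, so x₂ = x₁
    exfalso
    apply hne
    have h3 : Q + P = 0 := by
      have e1 : (2 : ℕ) • Q = (Q + P) + P := by
        rw [hQ, ← mul_nsmul, ← succ_nsmul, ← succ_nsmul]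
      rw [e1] at h
      exact right_eq_add.mp h.symm |> fun h' => h'
    have : Q = -P := eq_neg_of_add_eq_zero_left h3
    rw [← hx2, this, xOf_neg]
  · rw [h5, h, neg_add_cancel]

/-- first symmetric relation -/
def relI (E : WeierstrassCurve.Affine K) (s t : K) : K :=
  s ^ 3 - 6 * t * s - E.b₂ * t - E.b₄ * s - E.b₆

/-- second symmetric relation -/
def relII (E : WeierstrassCurve.Affine K) (s t : K) : K :=
  s ^ 4 - 8 * t * s ^ 2 + 10 * t ^ 2 - E.b₂ * t * s - E.b₄ * s ^ 2 - 2 * E.b₄ * t - 3 * E.b₆ * s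
    - 2 * E.b₈

theorem rel_sub (x₁ x₂ : K) :
    (x₂ * gD E x₁ - fD E x₁) - (x₁ * gD E x₂ - fD E x₂) =
      -(x₁ - x₂) * relI E (x₁ + x₂) (x₁ * x₂) := by
  simp only [gD, fD, relI]; ring

theorem rel_add (x₁ x₂ : K) :
    (x₂ * gD E x₁ - fD E x₁) + (x₁ * gD E x₂ - fD E x₂) = - relII E (x₁ + x₂) (x₁ * x₂) := by
  simp only [gD, fD, relII]; ring

theorem relI_relII_of_rel {x₁ x₂ : K} (h1 : x₂ * gD E x₁ = fD E x₁) (h2 : x₁ * gD E x₂ = fD E x₂)
    (hne : x₁ ≠ x₂) : relI E (x₁ + x₂) (x₁ * x₂) = 0 ∧ relII E (x₁ + x₂) (x₁ * x₂) = 0 := by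
  constructor
  · have := rel_sub (E := E) x₁ x₂
    rw [h1, h2, sub_self, sub_self, sub_self] at this
    have hne' : -(x₁ - x₂) ≠ 0 := neg_ne_zero.mpr (sub_ne_zero.mpr hne)
    exact (mul_eq_zero.mp this.symm).resolve_left hne'
  · have := rel_add (E := E) x₁ x₂
    rw [h1, h2, sub_self, sub_self, add_zero] at this
    exact neg_eq_zero.mp this.symm

theorem rel_of_relI_relII [NeZero (2 : K)] {x₁ x₂ : K} (hI : relI E (x₁ + x₂) (x₁ * x₂) = 0)
    (hII : relII E (x₁ + x₂) (x₁ * x₂) = 0) :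
    x₂ * gD E x₁ = fD E x₁ ∧ x₁ * gD E x₂ = fD E x₂ := by
  have e1 := rel_sub (E := E) x₁ x₂
  have e2 := rel_add (E := E) x₁ x₂
  rw [hI, mul_zero] at e1
  rw [hII, neg_zero] at e2
  have h2 : (2 : K) ≠ 0 := NeZero.ne 2
  constructor
  · have : 2 * (x₂ * gD E x₁ - fD E x₁) = 0 := by linear_combination e1 + e2
    exact sub_eq_zero.mp ((mul_eq_zero.mp this).resolve_left h2)
  · have : 2 * (x₁ * gD E x₂ - fD E x₂) = 0 := by linear_combination e2 - e1
    exact sub_eq_zero.mp ((mul_eq_zero.mp this).resolve_left h2)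

end Fermat.Agent.S51lib
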